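import Fermat.Agent.CFT.Local.PadicAlg
import Fermat.Agent.QbarInst
import Fermat.Prelude.Def_GaloisRep_CompletionBridge

/-!
# Krasner: finite extensions of `ℚ_q` come from number fields
-/

open Filter Topology Polynomial

namespace Fermat.Agent.CFT.Local

variable (q : ℕ) [Fact q.Prime]

/-- Every element `a` of `PadicAlgCl q` lies in `ℚ_q(b)` for some `b` algebraic over `ℚ`. -/
theorem exists_algebraic_mem_adjoin (a : PadicAlgCl q) :
    ∃ b : AlgebraicClosure ℚ, a ∈ IntermediateField.adjoin ℚ_[q] {padicEmbedding q b} := by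
  have hint : IsIntegral ℚ_[q] a := (Algebra.IsAlgebraic.isAlgebraic a).isIntegral
  set f := minpoly ℚ_[q] a with hf
  have fmon : f.Monic := minpoly.monic hint
  have firr : Irreducible f := minpoly.irreducible hint
  have fnatdeg0 : f.natDegree ≠ 0 := (Irreducible.natDegree_pos firr).ne'
  have fa0 : f.aeval a = 0 := minpoly.aeval _ _
  classical
  let S : Finset (PadicAlgCl q) := {x ∈ (f.rootSet (PadicAlgCl q)).toFinset | x ≠ a}
  obtain ⟨δ, δpos, hδ⟩ : ∃ δ : ℝ, 0 < δ ∧ ∀ x ∈ S, δ ≤ ‖a - x‖ := by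
    by_cases hS : S.Nonempty
    · obtain ⟨x₀, hx₀, hmin⟩ := Finset.exists_min_image S (fun x => ‖a - x‖) hS
      refine ⟨‖a - x₀‖, ?_, fun x hx => hmin x hx⟩
      rw [norm_pos_iff, sub_ne_zero]
      simp only [Finset.mem_filter, S] at hx₀
      exact hx₀.2.symm
    · refine ⟨1, one_pos, fun x hx => absurd ⟨x, hx⟩ hS⟩
  have norm_sub_le : ∀ a' : PadicAlgCl q, IsConjRoot ℚ_[q] a a' → a ≠ a' → δ ≤ ‖a - a'‖ := by
    intro a' conj ne
    apply hδ
    simp only [Finset.mem_filter, Set.mem_toFinset, S]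
    rw [hf, ← (isConjRoot_iff_mem_minpoly_rootSet hint)]
    exact ⟨conj, ne.symm⟩
  have hε : (δ / (max ‖a‖ 1)) ^ f.natDegree / (f.natDegree + 1) > 0 := by positivity
  have hd : DenseRange (algebraMap ℚ ℚ_[q]) := by
    have := Padic.denseRange_ratCast q
    exact this
  obtain ⟨g, gmon, gdeg, gcoeff⟩ :=
    exists_monic_and_natDegree_eq_and_norm_map_algebraMap_coeff_sub_lt hd fmon hε
  obtain ⟨b, hb, hab⟩ := exists_aroots_norm_sub_lt_of_norm_coeff_sub_lt (L := PadicAlgCl q)
      hε fa0 fmon (gmon.map _) (gdeg ▸ (g.natDegree_map _)) gcoeff (IsAlgClosed.splits _)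
  have hab : ‖a - b‖ < δ := by
    rw [← Real.rpow_natCast, ← mul_comm_div, div_self, one_mul,
        ← Real.rpow_mul (div_pos δpos (by positivity)).le, mul_inv_cancel₀] at hab
    · simpa [mul_assoc, div_mul_cancel₀ _ (by positivity : (max ‖a‖ 1) > 0).ne'] using hab
    · simp [fnatdeg0]
    · positivity
  -- `b` is algebraic over `ℚ`
  have hgb : (g.map (algebraMap ℚ (PadicAlgCl q))).eval b = 0 := by
    have h1 := (mem_roots'.mp hb).2
    have h2 : (algebraMap ℚ (PadicAlgCl q)) =
        (algebraMap ℚ_[q] (PadicAlgCl q)).comp (algebraMap ℚ ℚ_[q]) := Subsingleton.elim _ _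
    rw [h2, ← Polynomial.map_map]
    exact h1
  have hgne : g ≠ 0 := gmon.ne_zero
  obtain ⟨β, hβ⟩ : ∃ β : AlgebraicClosure ℚ, padicEmbedding q β = b := by
    have hsp : (g.map (algebraMap ℚ (AlgebraicClosure ℚ))).Splits := IsAlgClosed.splits _
    have h2 : g.map (algebraMap ℚ (PadicAlgCl q)) =
        (g.map (algebraMap ℚ (AlgebraicClosure ℚ))).map
          (padicEmbedding q : AlgebraicClosure ℚ →+* PadicAlgCl q) := by
      rw [Polynomial.map_map]
      congr 1
      exact (AlgHom.comp_algebraMap (padicEmbedding q)).symm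
    have h3 : b ∈ (g.map (algebraMap ℚ (PadicAlgCl q))).roots := by
      rw [mem_roots (Polynomial.map_ne_zero hgne)]
      exact hgb
    rw [h2, Splits.roots_map hsp, Multiset.mem_map] at h3
    obtain ⟨β, _, hβ⟩ := h3
    exact ⟨β, hβ⟩
  refine ⟨β, ?_⟩
  rw [hβ]
  have hbint : IsIntegral ℚ_[q] b := (Algebra.IsAlgebraic.isAlgebraic b).isIntegral
  exact IsKrasner.krasner (minpoly.irreducible hint).separable
    (IsAlgClosed.splits _) hbint fun a' h1 h2 => lt_of_lt_of_le hab (norm_sub_le a' h1 h2)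

/-- Every finite extension of `ℚ_q` inside `PadicAlgCl q` is contained in the compositum of `ℚ_q`
with a number field. -/
theorem exists_numberField_le (k : IntermediateField ℚ_[q] (PadicAlgCl q))
    [FiniteDimensional ℚ_[q] k] :
    ∃ F : IntermediateField ℚ (AlgebraicClosure ℚ), FiniteDimensional ℚ F ∧ IsGalois ℚ F ∧
      k ≤ IntermediateField.adjoin ℚ_[q] (padicEmbedding q '' F) := by
  have hsep : Algebra.IsSeparable ℚ_[q] k := inferInstance
  obtain ⟨α, hα⟩ := Field.exists_primitive_element ℚ_[q] k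
  obtain ⟨b, hb⟩ := exists_algebraic_mem_adjoin q (α : PadicAlgCl q)
  have hbint : IsIntegral ℚ b := (Algebra.IsAlgebraic.isAlgebraic b).isIntegral
  have hfd : FiniteDimensional ℚ (IntermediateField.adjoin ℚ {b}) :=
    IntermediateField.adjoin.finiteDimensional hbint
  let F := IntermediateField.normalClosure ℚ (IntermediateField.adjoin ℚ {b})
    (AlgebraicClosure ℚ)
  have hF1 : FiniteDimensional ℚ F := inferInstance
  have hF2 : IsGalois ℚ F := by
    have : Normal ℚ F := normalClosure.normal ℚ _ _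
    have : Algebra.IsSeparable ℚ F := inferInstance
    exact ⟨⟩
  refine ⟨F, hF1, hF2, ?_⟩
  have hbF : b ∈ F := by
    have h1 : IntermediateField.adjoin ℚ {b} ≤ F := IntermediateField.le_normalClosure _
    exact h1 (IntermediateField.mem_adjoin_simple_self ℚ b)
  have h2 : IntermediateField.adjoin ℚ_[q] {padicEmbedding q b} ≤
      IntermediateField.adjoin ℚ_[q] (padicEmbedding q '' F) :=
    IntermediateField.adjoin.mono _ _ _ (Set.singleton_subset_iff.mpr ⟨b, hbF, rfl⟩)
  intro x hx
  have h3 : (⟨x, hx⟩ : k) ∈ IntermediateField.adjoin ℚ_[q] {α} := by rw [hα]; trivial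
  have h4 : IntermediateField.adjoin ℚ_[q] {(α : PadicAlgCl q)} ≤
      IntermediateField.adjoin ℚ_[q] (padicEmbedding q '' F) := by
    rw [IntermediateField.adjoin_simple_le_iff]
    exact h2 hb
  apply h4
  have h5 := IntermediateField.adjoin_map ℚ_[q] {α} k.val
  rw [Set.image_singleton] at h5
  rw [show (α : PadicAlgCl q) = k.val α from rfl, ← h5]
  exact ⟨⟨x, hx⟩, h3, rfl⟩

/-- **Cofinality**: every open subgroup of the absolute Galois group of `ℚ_q` contains the preimage
of the Galois group of some finite Galois extension `F/ℚ`. -/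
theorem exists_comap_localGaloisToGlobal_le
    {V : Subgroup (PadicAlgCl q ≃ₐ[ℚ_[q]] PadicAlgCl q)}
    (hV : IsOpen (V : Set (PadicAlgCl q ≃ₐ[ℚ_[q]] PadicAlgCl q))) :
    ∃ F : IntermediateField ℚ (AlgebraicClosure ℚ), FiniteDimensional ℚ F ∧ IsGalois ℚ F ∧
      F.fixingSubgroup.comap (localGaloisToGlobal q) ≤ V := by
  obtain ⟨k, hk, rfl⟩ := exists_field_of_isOpen q hV
  obtain ⟨F, hF1, hF2, hF3⟩ := exists_numberField_le q k
  refine ⟨F, hF1, hF2, ?_⟩
  intro τ hτ
  rw [Subgroup.mem_comap] at hτ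
  have h1 : ∀ x ∈ IntermediateField.adjoin ℚ_[q] (padicEmbedding q '' F), τ x = x := by
    intro x hx
    have h2 : IntermediateField.adjoin ℚ_[q] (padicEmbedding q '' F) ≤
        IntermediateField.fixedField (Subgroup.zpowers τ) := by
      rw [IntermediateField.adjoin_le_iff]
      rintro _ ⟨y, hy, rfl⟩
      rw [SetLike.mem_coe, IntermediateField.mem_fixedField_iff]
      intro σ hσ
      have h3 : Subgroup.zpowers τ ≤
          MulAction.stabilizer (PadicAlgCl q ≃ₐ[ℚ_[q]] PadicAlgCl q) (padicEmbedding q y) := by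
        rw [Subgroup.zpowers_le, MulAction.mem_stabilizer_iff]
        change τ (padicEmbedding q y) = _
        rw [← padicEmbedding_localGaloisToGlobal]
        congr 1
        exact (IntermediateField.mem_fixingSubgroup_iff F _).mp hτ y hy
      exact h3 hσ
    have h4 := h2 hx
    rw [IntermediateField.mem_fixedField_iff] at h4
    exact h4 τ (Subgroup.mem_zpowers τ)
  rw [IntermediateField.mem_fixingSubgroup_iff]
  exact fun x hx => h1 x (hF3 hx)

/-- The preimage in the local Galois group of the Galois group of a number field is open. -/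
theorem isOpen_comap_localGaloisToGlobal (F : IntermediateField ℚ (AlgebraicClosure ℚ))
    [FiniteDimensional ℚ F] :
    IsOpen ((F.fixingSubgroup.comap (localGaloisToGlobal q) :
      Subgroup (PadicAlgCl q ≃ₐ[ℚ_[q]] PadicAlgCl q)) :
      Set (PadicAlgCl q ≃ₐ[ℚ_[q]] PadicAlgCl q)) := by
  have hsep : Algebra.IsSeparable ℚ F := inferInstance
  obtain ⟨α, hα⟩ := Field.exists_primitive_element ℚ F
  let k : IntermediateField ℚ_[q] (PadicAlgCl q) :=
    IntermediateField.adjoin ℚ_[q] {padicEmbedding q (α : AlgebraicClosure ℚ)}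
  have hk : FiniteDimensional ℚ_[q] k :=
    IntermediateField.adjoin.finiteDimensional (Algebra.IsAlgebraic.isAlgebraic _).isIntegral
  have hopen : IsOpen (k.fixingSubgroup : Set (PadicAlgCl q ≃ₐ[ℚ_[q]] PadicAlgCl q)) :=
    (InfiniteGalois.isOpen_iff_finite k).mpr hk
  refine Subgroup.isOpen_mono ?_ hopen
  intro τ hτ
  rw [Subgroup.mem_comap, IntermediateField.mem_fixingSubgroup_iff]
  rw [IntermediateField.mem_fixingSubgroup_iff] at hτ
  have h1 : localGaloisToGlobal q τ (α : AlgebraicClosure ℚ) = α := by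
    have hinj : Function.Injective (padicEmbedding q) := (padicEmbedding q).injective
    apply hinj
    rw [padicEmbedding_localGaloisToGlobal]
    exact hτ _ (IntermediateField.mem_adjoin_simple_self _ _)
  intro x hx
  have h2 : IntermediateField.adjoin ℚ {(α : AlgebraicClosure ℚ)} ≤
      IntermediateField.fixedField (Subgroup.zpowers (localGaloisToGlobal q τ)) := by
    rw [IntermediateField.adjoin_simple_le_iff, IntermediateField.mem_fixedField_iff]
    intro σ hσ
    have h3 : Subgroup.zpowers (localGaloisToGlobal q τ) ≤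
        MulAction.stabilizer (AlgebraicClosure ℚ ≃ₐ[ℚ] AlgebraicClosure ℚ)
          (α : AlgebraicClosure ℚ) := by
      rw [Subgroup.zpowers_le, MulAction.mem_stabilizer_iff]
      exact h1
    exact h3 hσ
  have h4 : x ∈ IntermediateField.adjoin ℚ {(α : AlgebraicClosure ℚ)} := by
    have h5 : (⟨x, hx⟩ : F) ∈ IntermediateField.adjoin ℚ {α} := by rw [hα]; trivial
    have h6 := IntermediateField.adjoin_map ℚ {α} F.val
    rw [Set.image_singleton] at h6
    rw [show (α : AlgebraicClosure ℚ) = F.val α from rfl, ← h6]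
    exact ⟨⟨x, hx⟩, h5, rfl⟩
  have h7 := h2 h4
  rw [IntermediateField.mem_fixedField_iff] at h7
  exact h7 _ (Subgroup.mem_zpowers _)

end Fermat.Agent.CFT.Local
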