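import Fermat.Agent.CFT.Local.Index

/-!
# Finite extensions of `ℚ_q`: `|O/qO| = q^d` and `|Kˣ/p|`
-/

open Filter Topology

open scoped NNReal

namespace Fermat.Agent.CFT.Local

section Padic

variable (q : ℕ) [Fact q.Prime] (K : Type*) [NormedField K] [NormedAlgebra ℚ_[q] K]

include K in
theorem norm_natCast_q : ‖((q : ℕ) : K)‖ = (q : ℝ)⁻¹ := by
  rw [← map_natCast (algebraMap ℚ_[q] K), norm_algebraMap', Padic.norm_p]

theorem norm_natCast_q_lt_one : ‖((q : ℕ) : K)‖ < 1 := by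
  rw [norm_natCast_q q K]
  exact inv_lt_one_of_one_lt₀ (by exact_mod_cast (Fact.out : q.Prime).one_lt)

theorem natCast_q_ne_zero : ((q : ℕ) : K) ≠ 0 := by
  rw [← norm_ne_zero_iff, norm_natCast_q q K]
  exact inv_ne_zero (by exact_mod_cast (Fact.out : q.Prime).ne_zero)

/-- The index of `q (ℤ_q)^d` in `(ℤ_q)^d`. -/
theorem index_nsmul_padicInt (d : ℕ) :
    (nsmulAddMonoidHom (α := Fin d → ℤ_[q]) q).range.index = q ^ d := by
  let ψ : (Fin d → ℤ_[q]) →+ (Fin d → ZMod q) :=
    { toFun := fun y i => PadicInt.toZMod (y i)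
      map_zero' := by ext i; simp
      map_add' := fun y z => by ext i; simp }
  have hker : ψ.ker = (nsmulAddMonoidHom (α := Fin d → ℤ_[q]) q).range := by
    ext y
    rw [AddMonoidHom.mem_ker, AddMonoidHom.mem_range]
    constructor
    · intro h
      have h1 : ∀ i, ∃ z : ℤ_[q], q • z = y i := by
        intro i
        have h2 : PadicInt.toZMod (y i) = 0 := congrFun h i
        rw [← RingHom.mem_ker, PadicInt.ker_toZMod, PadicInt.maximalIdeal_eq_span_p,
          Ideal.mem_span_singleton] at h2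
        obtain ⟨z, hz⟩ := h2
        exact ⟨z, by rw [nsmul_eq_mul, hz]⟩
      choose z hz using h1
      exact ⟨z, funext hz⟩
    · rintro ⟨z, rfl⟩
      ext i
      change PadicInt.toZMod (q • z i) = 0
      rw [← RingHom.mem_ker, PadicInt.ker_toZMod, PadicInt.maximalIdeal_eq_span_p,
          Ideal.mem_span_singleton]
      exact ⟨z i, by rw [nsmul_eq_mul]⟩
  have hsurj : Function.Surjective ψ := by
    intro y
    have h1 : ∀ i, ∃ z : ℤ_[q], PadicInt.toZMod z = y i :=
      fun i => ZMod.ringHom_surjective PadicInt.toZMod (y i)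
    choose z hz using h1
    exact ⟨z, funext hz⟩
  rw [← hker, AddSubgroup.index_ker, AddMonoidHom.range_eq_top.mpr hsurj]
  have : Nat.card (⊤ : AddSubgroup (Fin d → ZMod q)) = Nat.card (Fin d → ZMod q) :=
    AddSubgroup.card_top
  rw [this, Nat.card_pi]
  simp

variable [FiniteDimensional ℚ_[q] K] [IsUltrametricDist K]

omit [IsUltrametricDist K] in
include q in
theorem properSpace : ProperSpace K := FiniteDimensional.proper ℚ_[q] K

omit [IsUltrametricDist K] in
include q in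
theorem completeSpace : CompleteSpace K := FiniteDimensional.complete ℚ_[q] K

include q in
theorem compactSpace_O : CompactSpace (O K) := by
  have := properSpace q K
  have : IsCompact ((O K : AddSubgroup K) : Set K) := by
    have : ((O K : AddSubgroup K) : Set K) = Metric.closedBall 0 1 := by
      ext x; simp [mem_O]
    rw [this]
    exact isCompact_closedBall 0 1
  exact isCompact_iff_compactSpace.mp this

include q in
theorem index_ne_zero_of_ball {H : AddSubgroup (O K)} {δ : ℝ} (hδ : 0 < δ)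
    (h : ∀ x : O K, ‖(x : K)‖ < δ → x ∈ H) : H.index ≠ 0 := by
  have := compactSpace_O q K
  have hopen : IsOpen (H : Set (O K)) := by
    apply AddSubgroup.isOpen_of_mem_nhds (g := 0)
    rw [Metric.mem_nhds_iff]
    refine ⟨δ, hδ, fun x hx => h x ?_⟩
    rw [Metric.mem_ball, dist_zero_right] at hx
    exact hx
  have := AddSubgroup.quotient_finite_of_isOpen H hopen
  exact AddSubgroup.index_ne_zero_of_finite

theorem index_mulO_q :
    (mulO (q : K) (norm_natCast_q_lt_one q K).le).range.index =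
      q ^ Module.finrank ℚ_[q] K := by
  set d := Module.finrank ℚ_[q] K with hd
  have hqn := norm_natCast_q q K
  have hq0 := natCast_q_ne_zero q K
  have hq1 := norm_natCast_q_lt_one q K
  have hqpos : 0 < ‖(q : K)‖ := norm_pos_iff.mpr hq0
  let b := Module.finBasis ℚ_[q] K
  let e : K ≃L[ℚ_[q]] (Fin d → ℚ_[q]) := b.equivFun.toContinuousLinearEquiv
  obtain ⟨C, hC, hCe⟩ : ∃ C : ℝ, 0 < C ∧ ∀ y, ‖e.symm y‖ ≤ C * ‖y‖ :=
    e.symm.toContinuousLinearMap.bound
  obtain ⟨D, hD, hDe⟩ : ∃ D : ℝ, 0 < D ∧ ∀ x, ‖e x‖ ≤ D * ‖x‖ :=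
    e.toContinuousLinearMap.bound
  obtain ⟨N, hN⟩ : ∃ N : ℕ, ‖(q : K)‖ ^ N * C ≤ 1 := by
    obtain ⟨N, hN⟩ := exists_pow_lt_of_lt_one (y := ‖(q : K)‖) (x := C⁻¹) (by positivity) hq1
    refine ⟨N, ?_⟩
    rw [← le_div_iff₀ hC, one_div]
    exact hN.le
  have hbd : ∀ y : Fin d → ℤ_[q], ‖(fun i => (y i : ℚ_[q]))‖ ≤ 1 := by
    intro y
    rw [pi_norm_le_iff_of_nonneg zero_le_one]
    intro i
    exact (y i).norm_le_one
  let ι : (Fin d → ℤ_[q]) →+ O K :=
    { toFun := fun y => ⟨(q : K) ^ N * e.symm (fun i => (y i : ℚ_[q])), by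
        rw [mem_O, norm_mul, norm_pow]
        calc ‖(q : K)‖ ^ N * ‖e.symm (fun i => (y i : ℚ_[q]))‖
            ≤ ‖(q : K)‖ ^ N * (C * 1) := by
              gcongr
              refine (hCe _).trans ?_
              gcongr
              exact hbd y
          _ ≤ 1 := by rw [mul_one]; exact hN⟩
      map_zero' := by
        ext
        have : (fun i : Fin d => ((0 : Fin d → ℤ_[q]) i : ℚ_[q])) = 0 := by ext i; simp
        simp only [this, map_zero, mul_zero, ZeroMemClass.coe_zero]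
      map_add' := fun y z => by
        ext
        have : (fun i : Fin d => ((y + z) i : ℚ_[q])) =
          (fun i : Fin d => (y i : ℚ_[q])) + (fun i : Fin d => (z i : ℚ_[q])) := by ext i; simp
        simp only [this, map_add, mul_add, AddSubgroup.coe_add] }
  have hι : ∀ y, (ι y : K) = (q : K) ^ N * e.symm (fun i => (y i : ℚ_[q])) := fun y => rfl
  have hinj : Function.Injective ι := by
    intro y z hyz
    have h1 := congrArg (fun x : O K => (x : K)) hyz
    simp only [hι] at h1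
    have h2 := e.symm.injective (mul_left_cancel₀ (pow_ne_zero N hq0) h1)
    funext i
    exact Subtype.ext (congrFun h2 i)
  have hfin : ι.range.index ≠ 0 := by
    refine index_ne_zero_of_ball q K (δ := ‖(q : K)‖ ^ N * D⁻¹) (by positivity) ?_
    intro x hx
    set y : Fin d → ℚ_[q] := e (((q : K) ^ N)⁻¹ * x) with hy
    have hyn : ‖y‖ ≤ 1 := by
      refine (hDe _).trans ?_
      rw [norm_mul, norm_inv, norm_pow]
      have h1 : (‖(q : K)‖ ^ N)⁻¹ * ‖(x : K)‖ ≤ D⁻¹ := by
        rw [inv_mul_le_iff₀ (by positivity)]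
        exact hx.le
      calc D * ((‖(q : K)‖ ^ N)⁻¹ * ‖(x : K)‖) ≤ D * D⁻¹ := by gcongr
        _ = 1 := mul_inv_cancel₀ hD.ne'
    rw [pi_norm_le_iff_of_nonneg zero_le_one] at hyn
    let z : Fin d → ℤ_[q] := fun i => ⟨y i, hyn i⟩
    have hz : (fun i => (z i : ℚ_[q])) = y := rfl
    refine ⟨z, ?_⟩
    apply Subtype.ext
    rw [hι, hz, hy, e.symm_apply_apply, mul_inv_cancel_left₀ (pow_ne_zero N hq0)]
  have hcomm : ∀ y, mulO (q : K) hq1.le (ι y) = ι (nsmulAddMonoidHom q y) := by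
    intro y
    rw [nsmulAddMonoidHom_apply, map_nsmul]
    ext
    rw [mulO_apply, AddSubgroup.coe_nsmul, nsmul_eq_mul]
  have hkerf : (mulO (q : K) hq1.le).ker = ⊥ := by
    rw [AddMonoidHom.ker_eq_bot_iff]
    intro x y hxy
    have := congrArg (fun x : O K => (x : K)) hxy
    simp only [mulO_apply] at this
    exact Subtype.ext (mul_left_cancel₀ hq0 this)
  have hkerg : (nsmulAddMonoidHom (α := Fin d → ℤ_[q]) q).ker = ⊥ := by
    rw [AddMonoidHom.ker_eq_bot_iff]
    intro y z hyz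
    funext i
    have := congrFun hyz i
    simp only [nsmulAddMonoidHom_apply, Pi.smul_apply, nsmul_eq_mul] at this
    have hq0' : (q : ℤ_[q]) ≠ 0 := by
      exact_mod_cast (Fact.out : q.Prime).ne_zero
    exact mul_left_cancel₀ hq0' this
  have : Finite (mulO (q : K) hq1.le).ker := by rw [hkerf]; infer_instance
  have hmain := index_range_mul_card_ker_add ι hinj hfin (nsmulAddMonoidHom q)
    (mulO (q : K) hq1.le) hcomm
  rw [hkerf, hkerg, index_nsmul_padicInt] at hmain
  simpa using hmain.symm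

omit [FiniteDimensional ℚ_[q] K] [IsUltrametricDist K] in
/-- Every unit can be scaled by a power of `q` into the annulus `‖q‖ < ‖x‖ ≤ 1`. -/
theorem exists_zpow_mul_norm (x : Kˣ) :
    ∃ n : ℤ, ‖(q : K)‖ < ‖(q : K) ^ n * (x : K)‖ ∧ ‖(q : K) ^ n * (x : K)‖ ≤ 1 := by
  have hq1 := norm_natCast_q_lt_one q K
  have hqpos : 0 < ‖(q : K)‖ := norm_pos_iff.mpr (natCast_q_ne_zero q K)
  obtain ⟨n, hn1, hn2⟩ := exists_mem_Ioc_zpow (x := ‖(x : K)‖) (y := ‖(q : K)‖⁻¹)
    (norm_pos_iff.mpr x.ne_zero) ((one_lt_inv₀ hqpos).mpr hq1)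
  refine ⟨n + 1, ?_, ?_⟩
  · rw [norm_mul, norm_zpow]
    calc ‖(q : K)‖ = ‖(q : K)‖ ^ (n + 1) * (‖(q : K)‖⁻¹) ^ n := by
          rw [inv_zpow, ← div_eq_mul_inv, ← zpow_sub₀ hqpos.ne', add_sub_cancel_left, zpow_one]
      _ < ‖(q : K)‖ ^ (n + 1) * ‖(x : K)‖ := by gcongr
  · rw [norm_mul, norm_zpow]
    calc ‖(q : K)‖ ^ (n + 1) * ‖(x : K)‖ ≤ ‖(q : K)‖ ^ (n + 1) * (‖(q : K)‖⁻¹) ^ (n + 1) := by
          gcongr
      _ = 1 := by rw [← mul_zpow, mul_inv_cancel₀ hqpos.ne', one_zpow]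

/-- `q` as a unit of `K`. -/
noncomputable def qUnit : Kˣ := Units.mk0 (q : K) (natCast_q_ne_zero q K)

/-- The homomorphism `ℤ × U(‖q‖) → Kˣ`, `(n, u) ↦ q ^ n u`. -/
noncomputable def iotaHom : Multiplicative ℤ × U K ‖(q : K)‖₊ →* Kˣ :=
  (zpowersHom Kˣ (qUnit q K)).coprod (U K ‖(q : K)‖₊).subtype

omit [FiniteDimensional ℚ_[q] K] in
theorem iotaHom_apply (n : Multiplicative ℤ) (u : U K ‖(q : K)‖₊) :
    iotaHom q K (n, u) = qUnit q K ^ (Multiplicative.toAdd n) * u := rfl

omit [FiniteDimensional ℚ_[q] K] in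
theorem iotaHom_injective : Function.Injective (iotaHom q K) := by
  have hq1 := norm_natCast_q_lt_one q K
  have hqpos : 0 < ‖(q : K)‖ := norm_pos_iff.mpr (natCast_q_ne_zero q K)
  rw [injective_iff_map_eq_one]
  rintro ⟨n, u⟩ h
  rw [iotaHom_apply] at h
  have h1 := congrArg (fun x : Kˣ => ‖(x : K)‖) h
  simp only [Units.val_mul, Units.val_zpow_eq_zpow_val, qUnit, Units.val_mk0, norm_mul,
    norm_zpow, u.2.1, mul_one, Units.val_one, norm_one] at h1
  have h2 : Multiplicative.toAdd n = 0 := by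
    by_contra hne
    rcases lt_or_gt_of_ne hne with hlt | hgt
    · exact absurd h1 (one_lt_zpow_of_neg₀ hqpos hq1 hlt).ne'
    · exact absurd h1 (zpow_lt_one₀ hqpos hq1 hgt).ne
  rw [h2, zpow_zero, one_mul] at h
  have h3 : n = 1 := h2
  rw [h3]
  ext
  · rfl
  · simpa using congrArg (fun x : Kˣ => (x : K)) h

theorem iotaHom_index_ne_zero : (iotaHom q K).range.index ≠ 0 := by
  have := properSpace q K
  have hq1 := norm_natCast_q_lt_one q K
  have hq0 := natCast_q_ne_zero q K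
  have hqpos : 0 < ‖(q : K)‖ := norm_pos_iff.mpr hq0
  have hq1' : ‖(q : K)‖₊ < 1 := by exact_mod_cast hq1
  have hcpt : IsCompact (Metric.closedBall (0 : K) 1) := isCompact_closedBall 0 1
  obtain ⟨t, ht1, ht2, ht3⟩ := hcpt.finite_cover_balls (e := ‖(q : K)‖ ^ 2) (by positivity)
  have hrep : ∀ c : Kˣ ⧸ (iotaHom q K).range, ∃ x : Kˣ, (x : Kˣ ⧸ (iotaHom q K).range) = c ∧
      ‖(q : K)‖ < ‖(x : K)‖ ∧ ‖(x : K)‖ ≤ 1 := by
    intro c
    obtain ⟨x, rfl⟩ := QuotientGroup.mk_surjective c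
    obtain ⟨n, hn1, hn2⟩ := exists_zpow_mul_norm q K x
    refine ⟨qUnit q K ^ n * x, ?_, ?_, ?_⟩
    · rw [mul_comm, QuotientGroup.mk_mul_of_mem]
      exact ⟨(Multiplicative.ofAdd n, 1), by rw [iotaHom_apply]; simp⟩
    · simpa [qUnit] using hn1
    · simpa [qUnit] using hn2
  choose r hr1 hr2 hr3 using hrep
  have hball : ∀ c, ∃ y : t, (r c : K) ∈ Metric.ball (y : K) (‖(q : K)‖ ^ 2) := by
    intro c
    have : (r c : K) ∈ Metric.closedBall (0 : K) 1 := by
      rw [mem_closedBall_zero_iff]; exact hr3 c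
    have := ht3 this
    simp only [Set.mem_iUnion] at this
    obtain ⟨y, hy, h⟩ := this
    exact ⟨⟨y, hy⟩, h⟩
  choose i hi using hball
  have hinj : Function.Injective i := by
    intro c c' hcc
    rw [← hr1 c, ← hr1 c', QuotientGroup.eq]
    have h1 : ‖(r c' : K) - r c‖ < ‖(q : K)‖ ^ 2 := by
      have e1 := hi c
      have e2 := hi c'
      rw [hcc] at e1
      rw [Metric.mem_ball, dist_eq_norm] at e1 e2
      have e3 : (r c' : K) - r c = ((r c' : K) - i c') - ((r c : K) - i c') := by ring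
      rw [e3]
      rw [sub_eq_add_neg]
      refine (IsUltrametricDist.norm_add_le_max _ _).trans_lt (max_lt e2 ?_)
      rw [norm_neg]; exact e1
    have h2 : (r c)⁻¹ * r c' ∈ U K ‖(q : K)‖₊ := by
      rw [mem_U_of_lt hq1']
      have e4 : (((r c)⁻¹ * r c' : Kˣ) : K) - 1 = ((r c' : K) - r c) / r c := by
        rw [Units.val_mul, Units.val_inv_eq_inv_val]
        field_simp
      rw [e4, norm_div, div_le_iff₀ (norm_pos_iff.mpr (r c).ne_zero)]
      refine h1.le.trans ?_
      rw [pow_two]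
      exact mul_le_mul_of_nonneg_left (hr2 c).le (norm_nonneg _)
    exact ⟨(1, ⟨_, h2⟩), by rw [iotaHom_apply]; simp⟩
  have : Finite t := ht2
  have : Finite (Kˣ ⧸ (iotaHom q K).range) := Finite.of_injective i hinj
  exact Subgroup.index_ne_zero_of_finite

theorem index_pow_int (p : ℕ) :
    (powMonoidHom p : Multiplicative ℤ →* Multiplicative ℤ).range.index = p := by
  have h : (powMonoidHom p : Multiplicative ℤ →* Multiplicative ℤ).range =
      (AddSubgroup.zmultiples (p : ℤ)).toSubgroup := by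
    ext x
    constructor
    · rintro ⟨y, rfl⟩
      change Multiplicative.toAdd ((powMonoidHom p) y) ∈ AddSubgroup.zmultiples (p : ℤ)
      rw [AddSubgroup.mem_zmultiples_iff]
      exact ⟨Multiplicative.toAdd y, by simp [mul_comm]⟩
    · intro hx
      have hx' : Multiplicative.toAdd x ∈ AddSubgroup.zmultiples (p : ℤ) := hx
      rw [AddSubgroup.mem_zmultiples_iff] at hx'
      obtain ⟨k, hk⟩ := hx'
      refine ⟨Multiplicative.ofAdd k, ?_⟩
      apply Multiplicative.toAdd.injective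
      simp [← hk, mul_comm]
  rw [h]
  have h2 : (AddSubgroup.zmultiples (p : ℤ)).toSubgroup.index =
      (AddSubgroup.zmultiples (p : ℤ)).index := rfl
  rw [h2, Int.index_zmultiples]
  simp

omit [FiniteDimensional ℚ_[q] K] [IsUltrametricDist K] in
theorem nnnorm_natCast_prime {p : ℕ} (hp : p.Prime) (hpq : p ≠ q) : ‖(p : K)‖₊ = 1 := by
  have h : ‖(p : K)‖ = 1 := by
    rw [← map_natCast (algebraMap ℚ_[q] K), norm_algebraMap', Padic.norm_natCast_eq_one_iff]
    exact (Nat.coprime_primes (Fact.out : q.Prime) hp).mpr (Ne.symm hpq)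
  exact NNReal.eq h

include q in
omit [FiniteDimensional ℚ_[q] K] [IsUltrametricDist K] in
theorem natCast_ne_zero_of_prime {p : ℕ} (hp : p.Prime) : (p : K) ≠ 0 := by
  rw [← map_natCast (algebraMap ℚ_[q] K), map_ne_zero]
  exact_mod_cast hp.ne_zero

theorem index_pow_U {p : ℕ} (hp : p.Prime) (hp2 : p ≠ 2) :
    (powMonoidHom p : U K ‖(q : K)‖₊ →* U K ‖(q : K)‖₊).range.index =
      if p = q then q ^ Module.finrank ℚ_[q] K else 1 := by
  have := completeSpace q K
  have hq1 := norm_natCast_q_lt_one q K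
  have hq0 := natCast_q_ne_zero q K
  have hq1' : ‖(q : K)‖₊ < 1 := by exact_mod_cast hq1
  have hp0 : (p : K) ≠ 0 := natCast_ne_zero_of_prime q K hp
  have hle : ‖(q : K)‖₊ ≤ ‖(p : K)‖₊ := by
    by_cases hpq : p = q
    · rw [hpq]
    · rw [nnnorm_natCast_prime q K hp hpq]; exact hq1'.le
  have h1 : (powMonoidHom p : U K ‖(q : K)‖₊ →* U K ‖(q : K)‖₊).range =
      (U K (‖(p : K)‖₊ * ‖(q : K)‖₊)).subgroupOf (U K ‖(q : K)‖₊) := by
    rw [← U_map_pow hp hp2 hp0 hle hq1']
    ext v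
    rw [Subgroup.mem_subgroupOf]
    constructor
    · rintro ⟨u, rfl⟩
      exact ⟨u, u.2, rfl⟩
    · rintro ⟨u, hu, huv⟩
      exact ⟨⟨u, hu⟩, Subtype.ext huv⟩
  rw [h1, ← Subgroup.relIndex]
  by_cases hpq : p = q
  · rw [if_pos hpq, hpq, relIndex_U hq0 le_rfl hq1, index_mulO_q]
  · rw [if_neg hpq, nnnorm_natCast_prime q K hp hpq, one_mul, Subgroup.relIndex_self]

omit [NormedAlgebra ℚ_[q] K] [FiniteDimensional ℚ_[q] K] [IsUltrametricDist K] in
theorem finite_ker_pow {p : ℕ} (hp : p ≠ 0) : Finite (powMonoidHom p : Kˣ →* Kˣ).ker := by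
  have : NeZero p := ⟨hp⟩
  have h : (powMonoidHom p : Kˣ →* Kˣ).ker = rootsOfUnity p K := by
    ext x
    rw [MonoidHom.mem_ker, powMonoidHom_apply, mem_rootsOfUnity]
  rw [h]
  infer_instance

/-- **The index of `(Kˣ)^p` in `Kˣ`** for a finite extension `K` of `ℚ_q` and an odd prime `p`:
`[Kˣ : (Kˣ)^p] = p · |μ_p(K)| · p^d`, the last factor only for `p = q`. -/
theorem index_pow_units {p : ℕ} (hp : p.Prime) (hp2 : p ≠ 2) :
    (powMonoidHom p : Kˣ →* Kˣ).range.index =
      p * Nat.card (powMonoidHom p : Kˣ →* Kˣ).ker *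
        (if p = q then q ^ Module.finrank ℚ_[q] K else 1) := by
  have hq1 := norm_natCast_q_lt_one q K
  have hq1' : ‖(q : K)‖₊ < 1 := by exact_mod_cast hq1
  have hp0 : (p : K) ≠ 0 := natCast_ne_zero_of_prime q K hp
  have hle : ‖(q : K)‖₊ ≤ ‖(p : K)‖₊ := by
    by_cases hpq : p = q
    · rw [hpq]
    · rw [nnnorm_natCast_prime q K hp hpq]; exact hq1'.le
  have := finite_ker_pow K hp.ne_zero
  have hmain := index_range_mul_card_ker (iotaHom q K) (iotaHom_injective q K)
    (iotaHom_index_ne_zero q K) (powMonoidHom p) (powMonoidHom p)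
    (fun c => by simp only [powMonoidHom_apply, map_pow])
  have hrange : (powMonoidHom p : Multiplicative ℤ × U K ‖(q : K)‖₊ →* _).range =
      (powMonoidHom p : Multiplicative ℤ →* _).range.prod
        (powMonoidHom p : U K ‖(q : K)‖₊ →* _).range := by
    ext ⟨n, u⟩
    rw [Subgroup.mem_prod]
    constructor
    · rintro ⟨⟨m, v⟩, h⟩
      exact ⟨⟨m, congrArg Prod.fst h⟩, ⟨v, congrArg Prod.snd h⟩⟩
    · rintro ⟨⟨m, hm⟩, ⟨v, hv⟩⟩
      exact ⟨(m, v), Prod.ext hm hv⟩
  have hker : (powMonoidHom p : Multiplicative ℤ × U K ‖(q : K)‖₊ →* _).ker = ⊥ := by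
    rw [eq_bot_iff]
    rintro ⟨n, u⟩ h
    rw [MonoidHom.mem_ker, powMonoidHom_apply] at h
    rw [Subgroup.mem_bot]
    have h1 : n ^ p = 1 := congrArg Prod.fst h
    have h2 : u ^ p = 1 := congrArg Prod.snd h
    have h3 : n = 1 := by
      have : p • Multiplicative.toAdd n = 0 := h1
      rw [smul_eq_zero] at this
      rcases this with h | h
      · exact absurd h hp.ne_zero
      · exact h
    have h4 : u = 1 := by
      apply Subtype.ext
      exact eq_one_of_pow_eq_one_of_mem_U hp hp2 hp0 hle hq1' u.2 (congrArg Subtype.val h2)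
    rw [h3, h4]; rfl
  rw [hrange, hker, Subgroup.index_prod, index_pow_int, index_pow_U q K hp hp2] at hmain
  rw [Subgroup.card_bot, mul_one] at hmain
  rw [← hmain]
  ring

end Padic

end Fermat.Agent.CFT.Local
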