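import Fermat.Agent.CFT.Local.Finite
import Fermat.Agent.CFT.Herbrand

/-!
# Norm index for cyclic extensions of prime degree of local fields
-/

open Filter Topology

open scoped NNReal

namespace Fermat.Agent.CFT.Local

open Fermat.Agent.CFT.Herbrand

section QM

variable {M N : Type*} [CommGroup M] [CommGroup N]

theorem qM_congr (e : M ≃* N) (g : M →* M) (f : N →* N) (h : ∀ x, f (e x) = e (g x)) :
    qM f = qM g := by
  have h1 : f.range = g.range.map e.toMonoidHom := by
    ext y
    constructor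
    · rintro ⟨x, rfl⟩
      refine ⟨g (e.symm x), ⟨_, rfl⟩, ?_⟩
      change e _ = _
      rw [← h, e.apply_symm_apply]
    · rintro ⟨_, ⟨x, rfl⟩, rfl⟩
      exact ⟨e x, h x⟩
  have h2 : f.range.index = g.range.index := by
    rw [h1]
    exact Subgroup.index_map_of_bijective e.bijective _
  have h3 : f.ker = g.ker.map e.toMonoidHom := by
    ext y
    rw [MonoidHom.mem_ker]
    constructor
    · intro hy
      refine ⟨e.symm y, ?_, e.apply_symm_apply y⟩
      change g _ = 1
      apply e.injective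
      rw [← h, e.apply_symm_apply, hy, map_one]
    · rintro ⟨x, hx, rfl⟩
      change f (e x) = 1
      rw [h]
      have : g x = 1 := hx
      rw [this, map_one]
  have h4 : Nat.card f.ker = Nat.card g.ker := by
    rw [h3]
    exact (Nat.card_congr (g.ker.equivMapOfInjective e.toMonoidHom e.injective).toEquiv).symm
  rw [qM, qM, h2, h4]

end QM

section Cyclic

variable (K F : Type) [Field K] [Field F] [Algebra K F]

/-- The norm on unit groups. -/
noncomputable def normU : Fˣ →* Kˣ := Units.map (Algebra.norm K)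

/-- The inclusion of unit groups. -/
def inclU : Kˣ →* Fˣ := Units.map (algebraMap K F : K →* F)

theorem inclU_injective : Function.Injective (inclU K F) :=
  Units.map_injective (algebraMap K F).injective

variable {K F}

/-- The action of an automorphism on units. -/
def autU (s : F ≃ₐ[K] F) : Fˣ →* Fˣ := Units.map (s : F →* F)

theorem autU_apply (s : F ≃ₐ[K] F) (x : Fˣ) : ((autU s x : Fˣ) : F) = s x := rfl

theorem autU_iterate (s : F ≃ₐ[K] F) (n : ℕ) (x : Fˣ) :
    (((autU s)^[n] x : Fˣ) : F) = (s ^ n) x := by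
  induction n generalizing x with
  | zero => rfl
  | succ n ih => rw [Function.iterate_succ_apply, ih, pow_succ, autU_apply]; rfl

variable [FiniteDimensional K F] [IsGalois K F]

theorem prod_range_aut {s : F ≃ₐ[K] F} (hs : ∀ x, x ∈ Subgroup.zpowers s) {n : ℕ}
    (hn : Module.finrank K F = n) (x : F) :
    ∏ i ∈ Finset.range n, (s ^ i) x = algebraMap K F (Algebra.norm K x) := by
  classical
  rw [Algebra.norm_eq_prod_automorphisms K x]
  have hcard : Nat.card (F ≃ₐ[K] F) = n := by rw [IsGalois.card_aut_eq_finrank, hn]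
  have h1 := IsCyclic.image_range_card hs
  rw [hcard] at h1
  rw [← h1, Finset.prod_image]
  intro i hi j hj hij
  simp only [Finset.coe_range, Set.mem_Iio] at hi hj
  rw [← hcard, ← orderOf_eq_card_of_forall_mem_zpowers hs] at hi hj
  exact pow_injOn_Iio_orderOf hi hj hij

theorem nM_autU {s : F ≃ₐ[K] F} (hs : ∀ x, x ∈ Subgroup.zpowers s) {n : ℕ}
    (hn : Module.finrank K F = n) (x : Fˣ) :
    nM n (autU s) x = inclU K F (normU K F x) := by
  ext
  rw [nM_apply, Units.coe_prod]
  simp_rw [autU_iterate]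
  exact prod_range_aut hs hn (x : F)

omit [FiniteDimensional K F] in
theorem ker_dM_autU {s : F ≃ₐ[K] F} (hs : ∀ x, x ∈ Subgroup.zpowers s) [FiniteDimensional K F] :
    (dM (autU s)).ker = (inclU K F).range := by
  ext x
  rw [MonoidHom.mem_ker, dM_apply, div_eq_one]
  constructor
  · intro h
    have h1 : s (x : F) = x := by
      have := congrArg (fun y : Fˣ => (y : F)) h
      exact this
    have h2 : ∀ σ : F ≃ₐ[K] F, σ (x : F) = x := by
      intro σ
      have hle : Subgroup.zpowers s ≤ MulAction.stabilizer (F ≃ₐ[K] F) (x : F) := by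
        rw [Subgroup.zpowers_le]
        exact h1
      exact hle (hs σ)
    obtain ⟨y, hy⟩ := (IsGalois.mem_range_algebraMap_iff_fixed (x : F)).mpr h2
    have hy0 : y ≠ 0 := by
      rintro rfl
      rw [map_zero] at hy
      exact x.ne_zero hy.symm
    exact ⟨Units.mk0 y hy0, by ext; exact hy⟩
  · rintro ⟨y, rfl⟩
    ext
    rw [autU_apply]
    exact s.commutes y

theorem hc_dM_nM {s : F ≃ₐ[K] F} (hs : ∀ x, x ∈ Subgroup.zpowers s) {n : ℕ}
    (hn : Module.finrank K F = n) :
    hc (dM (autU s)) (nM n (autU s)) = (normU K F).range.index := by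
  have h1 : (nM n (autU s)).range = (normU K F).range.map (inclU K F) := by
    ext x
    constructor
    · rintro ⟨y, rfl⟩
      exact ⟨normU K F y, ⟨y, rfl⟩, (nM_autU hs hn y).symm⟩
    · rintro ⟨_, ⟨y, rfl⟩, rfl⟩
      exact ⟨y, nM_autU hs hn y⟩
  rw [hc, h1, ker_dM_autU hs, MonoidHom.range_eq_map (inclU K F),
    Subgroup.relIndex_map_map_of_injective _ _ (inclU_injective K F), Subgroup.relIndex_top_right]

theorem hc_nM_dM {s : F ≃ₐ[K] F} (hs : ∀ x, x ∈ Subgroup.zpowers s) {n : ℕ}
    (hn : Module.finrank K F = n) :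
    hc (nM n (autU s)) (dM (autU s)) = 1 := by
  rw [hc, Subgroup.relIndex_eq_one]
  intro x hx
  rw [MonoidHom.mem_ker, nM_autU hs hn] at hx
  have h1 : normU K F x = 1 := inclU_injective K F (by rw [hx, map_one])
  have h2 : Algebra.norm K (x⁻¹ : F) = 1 := by
    have h3 := congrArg (fun y : Kˣ => (y : K)) h1
    have h3' : Algebra.norm K (x : F) = 1 := h3
    rw [Algebra.norm_inv, h3', inv_one]
  have : IsCyclic (F ≃ₐ[K] F) := ⟨s, hs⟩
  obtain ⟨y, hy⟩ := groupCohomology.exists_div_of_norm_eq_one hs h2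
  refine ⟨y, ?_⟩
  rw [dM_apply]
  ext
  rw [Units.val_div_eq_div_val, autU_apply]
  have h4 : (x : F) = (y / s y)⁻¹ := by rw [hy, inv_inv]
  rw [h4, inv_div]

end Cyclic

section Local

variable (q : ℕ) [Fact q.Prime] (K F : Type) [NormedField K] [NormedAlgebra ℚ_[q] K]
  [FiniteDimensional ℚ_[q] K] [IsUltrametricDist K]
  [NormedField F] [NormedAlgebra ℚ_[q] F]
  [FiniteDimensional ℚ_[q] F] [IsUltrametricDist F]
  [Algebra K F] [IsScalarTower ℚ_[q] K F] [IsGalois K F]

include q in
theorem index_pow_units_ne_zero {p : ℕ} (hp : p.Prime) (hp2 : p ≠ 2) :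
    (powMonoidHom p : Kˣ →* Kˣ).range.index ≠ 0 := by
  have := finite_ker_pow K hp.ne_zero
  have h1 : Nat.card (powMonoidHom p : Kˣ →* Kˣ).ker ≠ 0 := Nat.card_pos.ne'
  rw [index_pow_units q K hp hp2]
  have : q ≠ 0 := (Fact.out : q.Prime).ne_zero
  refine mul_ne_zero (mul_ne_zero hp.ne_zero h1) ?_
  split_ifs <;> simp [this]

theorem qM_pow {p : ℕ} (hp : p.Prime) (hp2 : p ≠ 2) :
    qM (powMonoidHom p : Kˣ →* Kˣ) =
      p * (if p = q then (q : ℚ) ^ Module.finrank ℚ_[q] K else 1) := by
  have := finite_ker_pow K hp.ne_zero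
  have h1 : (Nat.card (powMonoidHom p : Kˣ →* Kˣ).ker : ℚ) ≠ 0 := by
    exact_mod_cast Nat.card_pos.ne'
  rw [qM, index_pow_units q K hp hp2]
  push_cast
  split_ifs
  · field_simp
  · field_simp

include q in
/-- **The norm index** of a cyclic extension of local fields of odd prime degree `p` is `p`. -/
theorem index_norm_range {p : ℕ} (hp : p.Prime) (hp2 : p ≠ 2) (hdeg : Module.finrank K F = p) :
    (normU K F).range.index = p := by
  have hpf : Fact p.Prime := ⟨hp⟩
  have hfd : FiniteDimensional K F := FiniteDimensional.right ℚ_[q] K F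
  have hcard : Nat.card (F ≃ₐ[K] F) = p := by rw [IsGalois.card_aut_eq_finrank, hdeg]
  have hcyc : IsCyclic (F ≃ₐ[K] F) := isCyclic_of_prime_card hcard
  obtain ⟨s, hs⟩ := hcyc.exists_generator
  have hsp : s ^ p = 1 := by rw [← hcard]; exact pow_card_eq_one'
  have hiter : ∀ x : Fˣ, (autU s)^[p] x = x := by
    intro x
    ext
    rw [autU_iterate, hsp]; rfl
  have := finite_ker_pow F hp.ne_zero
  obtain ⟨h1, h2, h3, h4, h5⟩ := tate_lemma_mul p (autU s) hiter
    (index_pow_units_ne_zero q F hp hp2) Nat.card_pos.ne'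
  rw [hc_nM_dM hs hdeg, hc_dM_nM hs hdeg, Nat.cast_one, div_one, qM_pow q F hp hp2] at h5
  -- transport to `Kˣ`
  have e : Kˣ ≃* (dM (autU s)).ker :=
    (MonoidHom.ofInjective (inclU_injective K F)).trans
      (MulEquiv.subgroupCongr (ker_dM_autU hs).symm)
  have h6 : qM (powMonoidHom p : (dM (autU s)).ker →* (dM (autU s)).ker) =
      qM (powMonoidHom p : Kˣ →* Kˣ) :=
    qM_congr e _ _ (fun x => by simp only [powMonoidHom_apply, map_pow])
  rw [h6, qM_pow q K hp hp2] at h5
  have hq0 : (q : ℚ) ≠ 0 := by exact_mod_cast (Fact.out : q.Prime).ne_zero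
  have hp0 : (p : ℚ) ≠ 0 := by exact_mod_cast hp.ne_zero
  have hfin : Module.finrank ℚ_[q] F = Module.finrank ℚ_[q] K * p := by
    rw [← hdeg, Module.finrank_mul_finrank]
  have h7 : (((normU K F).range.index : ℚ)) ^ (p - 1) = (p : ℚ) ^ (p - 1) := by
    have h8 : (((normU K F).range.index : ℚ)) ^ (p - 1) * p = p ^ p := by
      by_cases hpq : p = q
      · rw [if_pos hpq, if_pos hpq, mul_pow, ← pow_mul, ← hfin, ← mul_assoc] at h5
        exact mul_right_cancel₀ (pow_ne_zero _ hq0) h5
      · rw [if_neg hpq, if_neg hpq, mul_one] at h5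
        exact h5
    have h9 : (p : ℚ) ^ p = p ^ (p - 1) * p := by
      rw [← pow_succ]; congr 1; have := hp.two_le; omega
    rw [h9] at h8
    exact mul_right_cancel₀ hp0 h8
  have h10 : ((normU K F).range.index) ^ (p - 1) = p ^ (p - 1) := by exact_mod_cast h7
  exact Nat.pow_left_injective (by have := hp.two_le; omega) h10

end Local

end Fermat.Agent.CFT.Local
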