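import Fermat.Agent.CFT.LD.Form
import Fermat.Agent.CFT.Hasse.Concrete
import Fermat.Agent.CFT.Unram.Classes

/-!
# The absolute Galois group of `ℚ_q` satisfies the axioms `LD.Form`
-/

set_option autoImplicit false

open Filter Topology

namespace Fermat.Agent.CFT.Local

open Fermat.Agent.CFT.LC Fermat.Agent.CFT.LD Fermat.Agent.CFT.Unram ExtCitation

section Norm

variable {q : ℕ} [Fact q.Prime]

/-- For a subgroup `V ≤ U` of prime index `p`, normal in `U`, and `s ∈ U \ V`, the norm over
coset representatives is the product over powers of `s`. -/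
theorem normHom_eq_prod_pow {k E : Type} [Field k] [Field E] [Algebra k E]
    {U V : Subgroup (E ≃ₐ[k] E)} (hn : (V.subgroupOf U).Normal) {p : ℕ} (hp : p.Prime)
    (hidx : V.relIndex U = p) [Fintype (U ⧸ V.subgroupOf U)] {s : E ≃ₐ[k] E} (hsU : s ∈ U)
    (hsV : s ∉ V) {x : Eˣ} (hx : x ∈ fixU V) :
    ((normHom U V x : Eˣ) : E) = ∏ i ∈ Finset.range p, (s ^ i) (x : E) := by
  classical
  rw [Fermat.Agent.CFT.Local.normHom_apply]
  have hcard : Nat.card (U ⧸ V.subgroupOf U) = p := hidx
  have hfp : Fact p.Prime := ⟨hp⟩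
  let s' : U ⧸ V.subgroupOf U := ((⟨s, hsU⟩ : U) : U ⧸ V.subgroupOf U)
  have hs' : s' ≠ 1 := by
    intro h
    apply hsV
    have h1 := (QuotientGroup.eq_one_iff (N := V.subgroupOf U) (⟨s, hsU⟩ : U)).mp h
    exact h1
  have hord : orderOf s' = p := by
    have h1 : orderOf s' ∣ p := by rw [← hcard]; exact orderOf_dvd_natCard s'
    rcases (Nat.dvd_prime hp).mp h1 with h | h
    · exact absurd (orderOf_eq_one_iff.mp h) hs'
    · exact h
  have hgen : ∀ c, c ∈ Subgroup.zpowers s' := by
    intro c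
    rw [mem_zpowers_iff_mem_range_orderOf, hord]
    have h1 : (Finset.image (fun i => s' ^ i) (Finset.range p)) = Finset.univ := by
      apply Finset.eq_univ_of_card
      rw [Finset.card_image_of_injOn, Finset.card_range, ← Nat.card_eq_fintype_card, hcard]
      intro i hi j hj hij
      simp only [Finset.coe_range, Set.mem_Iio] at hi hj
      rw [← hord] at hi hj
      exact pow_injOn_Iio_orderOf hi hj hij
    rw [h1]; exact Finset.mem_univ _
  have h1 : (Finset.image (fun i => s' ^ i) (Finset.range p)) = Finset.univ := by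
    apply Finset.eq_univ_of_card
    rw [Finset.card_image_of_injOn, Finset.card_range, ← Nat.card_eq_fintype_card, hcard]
    intro i hi j hj hij
    simp only [Finset.coe_range, Set.mem_Iio] at hi hj
    rw [← hord] at hi hj
    exact pow_injOn_Iio_orderOf hi hj hij
  rw [← h1, Finset.prod_image]
  · refine Finset.prod_congr rfl fun i _ => ?_
    have h2 : (((⟨s, hsU⟩ : U) ^ i : U) : U ⧸ V.subgroupOf U) = s' ^ i := rfl
    have h3 : (Quotient.out (s' ^ i))⁻¹ * (⟨s, hsU⟩ : U) ^ i ∈ V.subgroupOf U := by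
      rw [← QuotientGroup.eq, h2]
      exact Quotient.out_eq _
    rw [Subgroup.mem_subgroupOf] at h3
    have h4 := hx _ h3
    have h5 : (((Quotient.out (s' ^ i) : U) : E ≃ₐ[k] E)⁻¹ * s ^ i) (x : E) = x := h4
    rw [AlgEquiv.mul_apply] at h5
    calc ((Quotient.out (s' ^ i) : U) : E ≃ₐ[k] E) (x : E)
        = ((Quotient.out (s' ^ i) : U) : E ≃ₐ[k] E)
          (((Quotient.out (s' ^ i) : U) : E ≃ₐ[k] E)⁻¹ ((s ^ i) (x : E))) := by rw [h5]
      _ = (s ^ i) (x : E) := by
          rw [← AlgEquiv.mul_apply, mul_inv_cancel, AlgEquiv.one_apply]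
  · intro i hi j hj hij
    simp only [Finset.coe_range, Set.mem_Iio] at hi hj
    rw [← hord] at hi hj
    exact pow_injOn_Iio_orderOf hi hj hij

end Norm

section Form

variable (q : ℕ) [Fact q.Prime]

/-- The units of `PadicAlgCl q` as a representation of the Galois group. -/
noncomputable def repUnits : Representation ℤ (PadicAlgCl q ≃ₐ[ℚ_[q]] PadicAlgCl q)
    (Additive (PadicAlgCl q)ˣ) where
  toFun g := (MonoidHom.toAdditive (autU (K := ℚ_[q]) g)).toIntLinearMap
  map_one' := rfl
  map_mul' _ _ := rfl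

theorem repUnits_apply (g : PadicAlgCl q ≃ₐ[ℚ_[q]] PadicAlgCl q) (x : (PadicAlgCl q)ˣ) :
    repUnits q g (Additive.ofMul x) = Additive.ofMul (autU g x) := rfl

theorem smul_eq_autU (g : PadicAlgCl q ≃ₐ[ℚ_[q]] PadicAlgCl q) (x : (PadicAlgCl q)ˣ) :
    g • x = autU g x := by
  ext; rfl

variable {q}

theorem mem_invs_iff {U : Subgroup (PadicAlgCl q ≃ₐ[ℚ_[q]] PadicAlgCl q)}
    {x : (PadicAlgCl q)ˣ} : Additive.ofMul x ∈ invs (repUnits q) U ↔ x ∈ fixU U := by
  rw [mem_invs]
  refine forall₂_congr fun g _ => ?_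
  rw [repUnits_apply]
  constructor
  · intro h
    have h1 : autU g x = x := Additive.ofMul.injective h
    exact congrArg (fun y : (PadicAlgCl q)ˣ => (y : PadicAlgCl q)) h1
  · intro h
    congr 1
    ext
    exact h

theorem invs_eq (U : Subgroup (PadicAlgCl q ≃ₐ[ℚ_[q]] PadicAlgCl q)) :
    invs (repUnits q) U = (fixU U).toAddSubgroup := by
  ext x
  exact mem_invs_iff (x := x.toMul)

theorem relIndex_invs (V U : Subgroup (PadicAlgCl q ≃ₐ[ℚ_[q]] PadicAlgCl q))
    (f : Additive (PadicAlgCl q)ˣ →+ Additive (PadicAlgCl q)ˣ)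
    (g : (PadicAlgCl q)ˣ →* (PadicAlgCl q)ˣ)
    (h : ∀ x ∈ fixU V, f (Additive.ofMul x) = Additive.ofMul (g x)) :
    ((invs (repUnits q) V).map f).relIndex (invs (repUnits q) U) =
      ((fixU V).map g).relIndex (fixU U) := by
  have h1 : (invs (repUnits q) V).map f = ((fixU V).map g).toAddSubgroup := by
    ext x
    constructor
    · rintro ⟨y, hy, rfl⟩
      have hy' : y.toMul ∈ fixU V := mem_invs_iff.mp hy
      exact ⟨y.toMul, hy', congrArg Additive.toMul (h _ hy').symm⟩
    · rintro ⟨y, hy, hyx⟩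
      refine ⟨Additive.ofMul y, mem_invs_iff.mpr hy, ?_⟩
      rw [h y hy]
      exact congrArg Additive.ofMul hyx
  rw [h1, invs_eq, Subgroup.relIndex_toAddSubgroup]

theorem relIndex_map_pow (U : Subgroup (PadicAlgCl q ≃ₐ[ℚ_[q]] PadicAlgCl q)) (p : ℕ) :
    ((fixU U).map (powMonoidHom p)).relIndex (fixU U) =
      (powMonoidHom p : fixU U →* fixU U).range.index := by
  rw [Subgroup.relIndex]
  congr 1
  ext x
  rw [Subgroup.mem_subgroupOf]
  constructor
  · rintro ⟨y, hy, hyx⟩
    exact ⟨⟨y, hy⟩, Subtype.ext hyx⟩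
  · rintro ⟨y, rfl⟩
    exact ⟨y, y.2, rfl⟩

variable (q)

theorem exists_field_le_of_mem_levels {N : Subgroup (PadicAlgCl q ≃ₐ[ℚ_[q]] PadicAlgCl q)}
    (hN : N ∈ (lvlOver (localGaloisToGlobal q)).levels) :
    ∃ E : IntermediateField ℚ_[q] (PadicAlgCl q), FiniteDimensional ℚ_[q] E ∧
      E.fixingSubgroup ≤ N := by
  obtain ⟨E, hE, h⟩ := exists_field_of_isOpen q (isOpen_lvlOver_iff.mp (Lvl.IsOpen.of_mem hN))
  exact ⟨E, hE, h.le⟩

variable (p : ℕ) [hp : Fact p.Prime]

theorem contChar_loc : PT.ContChar (lvlOver (localGaloisToGlobal q))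
    ((cycloChar p).comp (localGaloisToGlobal q)) := by
  obtain ⟨N, hN, h⟩ := isOpen_ker_cycloChar (p := p)
  exact ⟨_, ⟨N, hN, rfl⟩, fun x hx => h hx⟩

/-- The local Galois group of `ℚ_q` as a `p`-class formation. -/
noncomputable def formPadic (hp2 : p ≠ 2) :
    LD.Form p (lvlOver (localGaloisToGlobal q)) (repUnits q)
      ((cycloChar p).comp (localGaloisToGlobal q)) (if p = q then 1 else 0) :=
  have : NeZero p := ⟨hp.out.ne_zero⟩
  let ζ₀ := (HasEnoughRootsOfUnity.exists_primitiveRoot (AlgebraicClosure ℚ) p).choose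
  have hζ₀ : IsPrimitiveRoot ζ₀ p :=
    (HasEnoughRootsOfUnity.exists_primitiveRoot (AlgebraicClosure ℚ) p).choose_spec
  let ζ : (AlgebraicClosure ℚ)ˣ := (hζ₀.isUnit hp.out.ne_zero).unit
  have hζ : IsPrimitiveRoot ζ p := hζ₀.isUnit_unit hp.out.ne_zero
  have K := Hasse.kdataLoc (p := p) q hζ
  { μ :=
      { j := 
          { toFun := fun c => Additive.ofMul (Hasse.zp (Hasse.locUnits q 1 ζ) c)
            map_zero' := by rw [Hasse.zp_zero]; rfl
            map_add' := fun a b => by rw [Hasse.zp_add K.pow]; rfl }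
        comm := by
          intro g m
          change Additive.ofMul (Hasse.zp (Hasse.locUnits q 1 ζ) (PT.mu _ g m)) = _
          rw [PT.mu_apply]
          change _ = repUnits q g (Additive.ofMul (Hasse.zp (Hasse.locUnits q 1 ζ) m))
          rw [repUnits_apply, ← smul_eq_autU, K.smul_zp]
        inj := by
          intro a b hab
          exact K.zp_injective (Additive.ofMul.injective hab)
        surj := by
          intro a ha
          obtain ⟨c, hc⟩ := K.tors a.toMul ha
          exact ⟨c, congrArg Additive.ofMul hc⟩ }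
    smooth := by
      intro v
      obtain ⟨N, hN, h⟩ := K.sm v.toMul
      exact ⟨N, hN, fun s hs => congrArg Additive.ofMul (h s hs)⟩
    smooth_mu := PT.smooth_mu (contChar_loc q p)
    div := by
      intro a
      obtain ⟨y, hy⟩ := K.div a.toMul
      exact ⟨Additive.ofMul y, congrArg Additive.ofMul hy⟩
    h90 := by
      intro U _ f hf
      obtain ⟨h1, h2⟩ := (mem_Z1 _ _).mp hf
      obtain ⟨y, hy⟩ := Hasse.h90_gal (k := ℚ_[q]) (Ω := PadicAlgCl q)
        (lvlOver (localGaloisToGlobal q)) (fun N hN => exists_field_le_of_mem_levels q hN) U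
        (fun u => (f u).toMul) (fun v w => by
          have := congrArg Additive.toMul (h1 v w)
          rw [this, toMul_add, mul_comm]
          rfl) (h2.comp Additive.toMul)
      exact ⟨Additive.ofMul y, fun u => congrArg Additive.ofMul (hy u)⟩
    card := by
      intro U hU hχ
      rw [relIndex_invs U U (nsmulAddMonoidHom p) (powMonoidHom p) (fun x _ => rfl),
        relIndex_map_pow, index_pow_fixU (isOpen_lvlOver_iff.mp hU) hp.out hp2]
      · congr 2
        split_ifs <;> simp
      · intro z hz g hg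
        have hz0 : z ≠ 0 := by
          rintro rfl
          rw [zero_pow hp.out.ne_zero] at hz
          exact zero_ne_one hz
        obtain ⟨c, hc⟩ := K.tors (Units.mk0 z hz0) (Units.ext hz)
        have h3 := K.smul_zp g c
        have h4 : ((cycloChar p).comp (localGaloisToGlobal q)) g = 1 := hχ hg
        rw [h4, Units.val_one, one_mul, hc] at h3
        exact congrArg (fun y : (PadicAlgCl q)ˣ => (y : PadicAlgCl q)) h3
    norm := by
      intro U V hV hVU hn hidx s hsU hsV
      have hVo := isOpen_lvlOver_iff.mp hV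
      have hfin : Finite (U ⧸ V.subgroupOf U) := by
        have h1 : (V.subgroupOf U).index ≠ 0 := by
          change V.relIndex U ≠ 0
          rw [hidx]; exact hp.out.ne_zero
        have h2 : (V.subgroupOf U).FiniteIndex := ⟨h1⟩
        exact Subgroup.finite_quotient_of_finiteIndex
      have hft : Fintype (U ⧸ V.subgroupOf U) := Fintype.ofFinite _
      rw [relIndex_invs V U (nrm (repUnits q) p s) (normHom U V) (fun x hx => ?_),
        norm_index_group hVo hVU hn hp.out hp2 hidx]
      rw [nrm_apply]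
      apply Additive.toMul.injective
      rw [toMul_sum]
      ext
      rw [Units.coe_prod, toMul_ofMul, normHom_eq_prod_pow hn hp.out hidx hsU hsV hx]
      rfl }

end Form

end Fermat.Agent.CFT.Local
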