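import Mathlib

/-!
# Local fields, algebraic preliminaries: comparing kernels and cokernels of an endomorphism on
a subgroup of finite index.
-/

namespace Fermat.Agent.CFT.Local

/-- If `ι : C → A` is injective with image of finite index, and `f ∘ ι = ι ∘ g`, then
`|coker g| * |ker f| = |coker f| * |ker g|` (`ker f` being finite). -/
@[to_additive index_range_mul_card_ker_add]
theorem index_range_mul_card_ker {A C : Type*} [CommGroup A] [CommGroup C]
    (ι : C →* A) (hι : Function.Injective ι) (hfin : ι.range.index ≠ 0)
    (g : C →* C) (f : A →* A) (h : ∀ c, f (ι c) = ι (g c)) [Finite f.ker] :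
    g.range.index * Nat.card f.ker = f.range.index * Nat.card g.ker := by
  -- `[A : f B] = [B : f B] [A : B]` with `B = ι C`
  have h1 : (ι.range.map f).index = g.range.index * ι.range.index := by
    have e : ι.range.map f = g.range.map ι := by
      rw [MonoidHom.range_eq_map, MonoidHom.range_eq_map, Subgroup.map_map, Subgroup.map_map]
      congr 1
      ext c; exact h c
    rw [e, Subgroup.index_map, (MonoidHom.ker_eq_bot_iff ι).mpr hι, sup_bot_eq]
  have h2 : (ι.range.map f).index = (ι.range ⊔ f.ker).index * f.range.index :=
    Subgroup.index_map _ _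
  have h3 : ι.range.relIndex (ι.range ⊔ f.ker) * (ι.range ⊔ f.ker).index = ι.range.index :=
    Subgroup.relIndex_mul_index le_sup_left
  have h4 : ι.range.relIndex (ι.range ⊔ f.ker) = ι.range.relIndex f.ker := by
    rw [sup_comm, Subgroup.relIndex_sup_right]
  have h5 : Nat.card g.ker * ι.range.relIndex f.ker = Nat.card f.ker := by
    have e : Nat.card g.ker = Nat.card (ι.range.subgroupOf f.ker) := by
      refine Nat.card_congr (Equiv.ofBijective
        (fun c : g.ker => (⟨⟨ι c, by
          rw [MonoidHom.mem_ker, h, MonoidHom.mem_ker.mp c.2, map_one]⟩,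
          by rw [Subgroup.mem_subgroupOf]; exact ⟨c, rfl⟩⟩ : ι.range.subgroupOf f.ker)) ⟨?_, ?_⟩)
      · intro c d hcd
        have : ι c = ι d := by
          have := congrArg (fun x : ι.range.subgroupOf f.ker => ((x : f.ker) : A)) hcd
          simpa using this
        exact Subtype.ext (hι this)
      · rintro ⟨⟨a, ha⟩, hb⟩
        rw [Subgroup.mem_subgroupOf] at hb
        obtain ⟨c, hc⟩ := hb
        have hc' : ι c = a := hc
        refine ⟨⟨c, ?_⟩, ?_⟩
        · rw [MonoidHom.mem_ker]
          apply hι
          rw [← h, hc', map_one]
          exact ha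
        · apply Subtype.ext
          apply Subtype.ext
          exact hc'
    rw [e]
    exact Subgroup.card_mul_index _
  -- combine
  have h6 : ι.range.index * (g.range.index * Nat.card f.ker) =
      ι.range.index * (f.range.index * Nat.card g.ker) := by
    rw [← h4] at h5
    calc ι.range.index * (g.range.index * Nat.card f.ker)
        = (g.range.index * ι.range.index) * Nat.card f.ker := by ring
      _ = ((ι.range ⊔ f.ker).index * f.range.index) * Nat.card f.ker := by rw [← h1, h2]
      _ = (ι.range.relIndex (ι.range ⊔ f.ker) * (ι.range ⊔ f.ker).index) *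
            (f.range.index * Nat.card g.ker) := by rw [← h5]; ring
      _ = ι.range.index * (f.range.index * Nat.card g.ker) := by rw [h3]
  exact Nat.eq_of_mul_eq_mul_left (Nat.pos_of_ne_zero hfin) h6

end Fermat.Agent.CFT.Local
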