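import Fermat.Agent.CFT.Local.Algebra

/-!
# Local fields: the filtration of the unit group, `p`-th powers

`U K ρ` is the group of `u : Kˣ` with `‖u‖ = 1` and `‖u - 1‖ ≤ ρ`.
-/

open Filter Topology

open scoped NNReal

namespace Fermat.Agent.CFT.Local

/-! ### Successive approximation -/

section SuccApprox

variable {F K : Type*} [NormedField F] [CompleteSpace F] [IsUltrametricDist F]
  [NormedField K] [IsUltrametricDist K]

theorem norm_eq_one_of_norm_sub_one_lt {u : K} (h : ‖u - 1‖ < 1) : ‖u‖ = 1 := by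
  have h1 : ‖u - 1 + 1‖ = max ‖u - 1‖ ‖(1 : K)‖ :=
    IsUltrametricDist.norm_add_eq_max_of_norm_ne_norm (by rw [norm_one]; exact h.ne)
  rw [norm_one, max_eq_right h.le, sub_add_cancel] at h1
  exact h1

theorem norm_eq_of_norm_sub_lt {u v : K} (h : ‖u - v‖ < ‖v‖) : ‖u‖ = ‖v‖ := by
  have h1 : ‖u - v + v‖ = max ‖u - v‖ ‖v‖ :=
    IsUltrametricDist.norm_add_eq_max_of_norm_ne_norm h.ne
  rw [max_eq_right h.le, sub_add_cancel] at h1
  exact h1

/-- Successive approximation for a continuous multiplicative map. -/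
theorem succ_approx (φ : F →* K) (hφ : Continuous φ) (r s : ℕ → ℝ)
    (hr1 : ∀ n, r n < 1) (hra : ∀ n, r n ≤ r 0) (hr : Tendsto r atTop (𝓝 0))
    (hs1 : ∀ n, s n < 1) (hs : Tendsto s atTop (𝓝 0))
    (step : ∀ n, ∀ v : K, ‖v - 1‖ ≤ s n → ∃ u : F, ‖u - 1‖ ≤ r n ∧ ‖v - φ u‖ ≤ s (n + 1))
    (v : K) (hv : ‖v - 1‖ ≤ s 0) : ∃ u : F, ‖u - 1‖ ≤ r 0 ∧ φ u = v := by
  choose! f hf1 hf2 using step
  -- the sequence of remainders `v n`
  let w : ℕ → K := fun n => Nat.rec v (fun n x => x / φ (f n x)) n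
  have hw0 : w 0 = v := rfl
  have hws : ∀ n, w (n + 1) = w n / φ (f n (w n)) := fun n => rfl
  have hφn : ∀ n, ∀ x : K, ‖x - 1‖ ≤ s n → ‖φ (f n x)‖ = 1 := by
    intro n x hx
    have h1 : ‖x‖ = 1 := norm_eq_one_of_norm_sub_one_lt (hx.trans_lt (hs1 n))
    have h2 : ‖φ (f n x) - x‖ < ‖x‖ := by
      rw [h1, norm_sub_rev]; exact (hf2 n x hx).trans_lt (hs1 _)
    rw [norm_eq_of_norm_sub_lt h2, h1]
  have hw : ∀ n, ‖w n - 1‖ ≤ s n := by
    intro n
    induction n with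
    | zero => exact hv
    | succ n ih =>
      have h0 : φ (f n (w n)) ≠ 0 := by
        rw [← norm_ne_zero_iff, hφn n _ ih]; exact one_ne_zero
      have h1 : w (n + 1) - 1 = (w n - φ (f n (w n))) / φ (f n (w n)) := by
        rw [hws]; field_simp
      rw [h1, norm_div, hφn n _ ih, div_one]
      exact hf2 n _ ih
  -- the sequence of partial products
  let P : ℕ → F := fun n => Nat.rec 1 (fun n x => x * f n (w n)) n
  have hP0 : P 0 = 1 := rfl
  have hPs : ∀ n, P (n + 1) = P n * f n (w n) := fun n => rfl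
  have hPn : ∀ n, ‖P n‖ = 1 := by
    intro n
    induction n with
    | zero => rw [hP0, norm_one]
    | succ n ih =>
      rw [hPs, norm_mul, ih, one_mul]
      exact norm_eq_one_of_norm_sub_one_lt ((hf1 n _ (hw n)).trans_lt (hr1 n))
  have hPd : ∀ n, ‖P (n + 1) - P n‖ ≤ r n := by
    intro n
    have : P (n + 1) - P n = P n * (f n (w n) - 1) := by rw [hPs]; ring
    rw [this, norm_mul, hPn, one_mul]
    exact hf1 n _ (hw n)
  have hPr : ∀ n, ‖P n - 1‖ ≤ r 0 := by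
    intro n
    induction n with
    | zero => rw [hP0, sub_self, norm_zero]; exact (norm_nonneg _).trans (hf1 0 _ (hw 0))
    | succ n ih =>
      have : P (n + 1) - 1 = (P (n + 1) - P n) + (P n - 1) := by ring
      rw [this]
      exact (IsUltrametricDist.norm_add_le_max _ _).trans
        (max_le ((hPd n).trans (hra n)) ih)
  have hcauchy : CauchySeq P := by
    apply NonarchimedeanAddGroup.cauchySeq_of_tendsto_sub_nhds_zero
    rw [tendsto_zero_iff_norm_tendsto_zero]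
    exact squeeze_zero (fun n => norm_nonneg _) hPd hr
  obtain ⟨u, hu⟩ := cauchySeq_tendsto_of_complete hcauchy
  have hwP : ∀ n, w n * φ (P n) = v := by
    intro n
    induction n with
    | zero => rw [hw0, hP0, map_one, mul_one]
    | succ n ih =>
      have h0 : φ (f n (w n)) ≠ 0 := by
        rw [← norm_ne_zero_iff, hφn n _ (hw n)]; exact one_ne_zero
      rw [hws, hPs, map_mul, ← ih]
      field_simp
  have hwt : Tendsto w atTop (𝓝 1) := by
    rw [tendsto_iff_norm_sub_tendsto_zero]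
    exact squeeze_zero (fun n => norm_nonneg _) hw hs
  refine ⟨u, ?_, ?_⟩
  · have h1 : Tendsto (fun n => ‖P n - 1‖) atTop (𝓝 ‖u - 1‖) := (hu.sub_const 1).norm
    exact le_of_tendsto' h1 hPr
  · have h1 : Tendsto (fun n => w n * φ (P n)) atTop (𝓝 (1 * φ u)) :=
      hwt.mul ((hφ.tendsto u).comp hu)
    rw [one_mul] at h1
    have h2 : Tendsto (fun n => w n * φ (P n)) atTop (𝓝 v) := by
      simp only [hwP]; exact tendsto_const_nhds
    exact tendsto_nhds_unique h1 h2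

end SuccApprox

/-! ### The filtration -/

section Filtration

variable (K : Type*) [NormedField K] [IsUltrametricDist K]

/-- The group of units `u` with `‖u‖ = 1` and `‖u - 1‖ ≤ ρ`. -/
def U (ρ : ℝ≥0) : Subgroup Kˣ where
  carrier := {u | ‖(u : K)‖ = 1 ∧ ‖(u : K) - 1‖ ≤ ρ}
  one_mem' := by
    refine ⟨by simp, ?_⟩
    simp
  mul_mem' := by
    rintro u v ⟨hu, hu'⟩ ⟨hv, hv'⟩
    refine ⟨by rw [Units.val_mul, norm_mul, hu, hv, one_mul], ?_⟩
    have : (↑(u * v) : K) - 1 = u * (v - 1) + (u - 1) := by push_cast; ring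
    rw [this]
    refine (IsUltrametricDist.norm_add_le_max _ _).trans (max_le ?_ hu')
    rwa [norm_mul, hu, one_mul]
  inv_mem' := by
    rintro u ⟨hu, hu'⟩
    refine ⟨by rw [Units.val_inv_eq_inv_val, norm_inv, hu, inv_one], ?_⟩
    have : (↑(u⁻¹) : K) - 1 = (u⁻¹ : Kˣ) * (1 - u) := by
      rw [mul_sub, Units.inv_mul, mul_one]
    rw [this, norm_mul, Units.val_inv_eq_inv_val, norm_inv, hu, inv_one, one_mul, norm_sub_rev]
    exact hu'

variable {K}

theorem mem_U {ρ : ℝ≥0} {u : Kˣ} : u ∈ U K ρ ↔ ‖(u : K)‖ = 1 ∧ ‖(u : K) - 1‖ ≤ ρ := Iff.rfl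

theorem mem_U_of_lt {ρ : ℝ≥0} (hρ : ρ < 1) {u : Kˣ} : u ∈ U K ρ ↔ ‖(u : K) - 1‖ ≤ ρ := by
  refine ⟨fun h => h.2, fun h => ⟨?_, h⟩⟩
  exact norm_eq_one_of_norm_sub_one_lt (h.trans_lt (by exact_mod_cast hρ))

theorem U_mono {ρ ρ' : ℝ≥0} (h : ρ ≤ ρ') : U K ρ ≤ U K ρ' := by
  intro u hu
  exact ⟨hu.1, hu.2.trans (by exact_mod_cast h)⟩

end Filtration

/-! ### The `p`-th power map near `1` -/

section Pow

variable {K : Type*} [NormedField K] [IsUltrametricDist K]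

theorem norm_one_add_pow_sub_le {p : ℕ} (hp : p.Prime) (hp2 : p ≠ 2) {c : ℝ}
    (hc : c ≤ ‖(p : K)‖) {x : K} (hx : ‖x‖ ≤ c) :
    ‖(1 + x) ^ p - 1 - p * x‖ ≤ c * ‖(p : K)‖ * ‖x‖ := by
  have hp1 : ‖(p : K)‖ ≤ 1 := IsUltrametricDist.norm_natCast_le_one K p
  have hc0 : 0 ≤ c := (norm_nonneg x).trans hx
  have hx1 : ‖x‖ ≤ 1 := hx.trans (hc.trans hp1)
  have hp3 : 3 ≤ p := by have := hp.two_le; omega
  have hexp : (1 + x) ^ p - 1 - p * x =
      ∑ k ∈ Finset.range (p - 1), x ^ (k + 2) * (p.choose (k + 2) : K) := by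
    have h1 : p + 1 = (p - 1) + 1 + 1 := by omega
    rw [add_comm 1 x, add_pow, h1, Finset.sum_range_succ', Finset.sum_range_succ']
    simp only [one_pow, mul_one, pow_zero, Nat.choose_zero_right, Nat.cast_one, zero_add, pow_one,
      Nat.choose_one_right]
    ring
  rw [hexp]
  refine IsUltrametricDist.norm_sum_le_of_forall_le_of_nonneg (by positivity) ?_
  intro k hk
  rw [Finset.mem_range] at hk
  rw [norm_mul, norm_pow]
  rcases Nat.lt_or_ge (k + 2) p with hkp | hkp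
  · have h1 : ‖(p.choose (k + 2) : K)‖ ≤ ‖(p : K)‖ := by
      obtain ⟨m, hm⟩ := hp.dvd_choose_self (by omega : k + 2 ≠ 0) hkp
      rw [hm, Nat.cast_mul, norm_mul]
      exact mul_le_of_le_one_right (norm_nonneg _) (IsUltrametricDist.norm_natCast_le_one K m)
    have h2 : ‖x‖ ^ (k + 2) ≤ c * ‖x‖ := by
      calc ‖x‖ ^ (k + 2) = ‖x‖ ^ (k + 1) * ‖x‖ := by ring
        _ ≤ ‖x‖ * ‖x‖ := by
            gcongr
            exact pow_le_of_le_one (norm_nonneg _) hx1 (by omega)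
        _ ≤ c * ‖x‖ := by gcongr
    calc ‖x‖ ^ (k + 2) * ‖(p.choose (k + 2) : K)‖ ≤ (c * ‖x‖) * ‖(p : K)‖ := by gcongr
      _ = c * ‖(p : K)‖ * ‖x‖ := by ring
  · have hkp' : k + 2 = p := by omega
    rw [hkp', Nat.choose_self, Nat.cast_one, norm_one, mul_one]
    calc ‖x‖ ^ p = ‖x‖ ^ (p - 1) * ‖x‖ := by
          rw [← pow_succ]; congr 1; omega
      _ ≤ ‖x‖ ^ 2 * ‖x‖ := by
          gcongr ?_ * _
          exact pow_le_pow_of_le_one (norm_nonneg _) hx1 (by omega)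
      _ ≤ (c * ‖(p : K)‖) * ‖x‖ := by
          gcongr
          rw [pow_two]
          exact mul_le_mul hx (hx.trans hc) (norm_nonneg _) hc0

theorem norm_pow_sub_one_of_le {p : ℕ} (hp : p.Prime) (hp2 : p ≠ 2) (hp0 : (p : K) ≠ 0) {c : ℝ}
    (hc : c ≤ ‖(p : K)‖) (hc1 : c < 1) {u : K} (hu : ‖u - 1‖ ≤ c) :
    ‖u ^ p - 1‖ = ‖(p : K)‖ * ‖u - 1‖ := by
  rcases eq_or_ne u 1 with rfl | hne
  · simp
  have h1 := norm_one_add_pow_sub_le hp hp2 hc hu
  rw [add_sub_cancel] at h1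
  have hpos : 0 < ‖(p : K)‖ * ‖u - 1‖ :=
    mul_pos (norm_pos_iff.mpr hp0) (norm_pos_iff.mpr (sub_ne_zero.mpr hne))
  have h2 : ‖u ^ p - 1 - p * (u - 1)‖ < ‖(p : K) * (u - 1)‖ := by
    rw [norm_mul]
    refine h1.trans_lt ?_
    rw [mul_assoc]
    exact mul_lt_of_lt_one_left hpos hc1
  rw [norm_eq_of_norm_sub_lt h2, norm_mul]

/-- The `p`-th power map sends `U (c)` onto `U (‖p‖ c)`. -/
theorem exists_pow_eq [CompleteSpace K] {p : ℕ} (hp : p.Prime) (hp2 : p ≠ 2)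
    (hp0 : (p : K) ≠ 0) {c : ℝ} (hc0 : 0 ≤ c)
    (hc : c ≤ ‖(p : K)‖) (hc1 : c < 1) (v : K) (hv : ‖v - 1‖ ≤ ‖(p : K)‖ * c) :
    ∃ u : K, ‖u - 1‖ ≤ c ∧ u ^ p = v := by
  have hp1 : ‖(p : K)‖ ≤ 1 := IsUltrametricDist.norm_natCast_le_one K p
  have hppos : 0 < ‖(p : K)‖ := norm_pos_iff.mpr hp0
  have hcn : ∀ n, c ^ (n + 1) ≤ c := fun n => pow_le_of_le_one hc0 hc1.le (by omega)
  have htend : Tendsto (fun n : ℕ => c ^ (n + 1)) atTop (𝓝 0) :=
    (tendsto_add_atTop_iff_nat 1).mpr (tendsto_pow_atTop_nhds_zero_of_lt_one hc0 hc1)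
  obtain ⟨u, hu, huv⟩ := succ_approx (F := K) (K := K) (powMonoidHom p) (continuous_pow p)
    (fun n => c ^ (n + 1)) (fun n => ‖(p : K)‖ * c ^ (n + 1))
    (fun n => (hcn n).trans_lt hc1) (fun n => by simpa using hcn n) htend
    (fun n => (mul_le_of_le_one_left (by positivity) hp1).trans_lt ((hcn n).trans_lt hc1))
    (by simpa using htend.const_mul ‖(p : K)‖)
    (by
      intro n v hv
      refine ⟨1 + (v - 1) / p, ?_, ?_⟩
      · rw [add_sub_cancel_left, norm_div, div_le_iff₀ hppos, mul_comm]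
        exact hv
      · have hx : ‖(v - 1) / (p : K)‖ ≤ c ^ (n + 1) := by
          rw [norm_div, div_le_iff₀ hppos, mul_comm]
          exact hv
        have h1 := norm_one_add_pow_sub_le hp hp2 hc (hx.trans (hcn n))
        rw [powMonoidHom_apply, norm_sub_rev]
        have h2 : (1 + (v - 1) / (p : K)) ^ p - v =
            (1 + (v - 1) / (p : K)) ^ p - 1 - p * ((v - 1) / (p : K)) := by
          field_simp; ring
        rw [h2]
        refine h1.trans ?_
        calc c * ‖(p : K)‖ * ‖(v - 1) / (p : K)‖ ≤ c * ‖(p : K)‖ * c ^ (n + 1) := by gcongr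
          _ = ‖(p : K)‖ * c ^ (n + 1 + 1) := by ring)
    v (by simpa using hv)
  exact ⟨u, by simpa using hu, huv⟩

end Pow

end Fermat.Agent.CFT.Local
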