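import Fermat.Agent.CFT.Local.NormIndex

/-!
# Norms and embeddings in terms of the absolute Galois group
-/

open Filter Topology

namespace Fermat.Agent.CFT.Local

section GaloisNorm

variable {k E : Type} [Field k] [Field E] [Algebra k E]

/-- The units of `E` fixed by `U`. -/
def fixU (U : Subgroup (E ≃ₐ[k] E)) : Subgroup Eˣ where
  carrier := {x | ∀ g ∈ U, g (x : E) = x}
  one_mem' := fun g _ => by simp
  mul_mem' := fun {a b} ha hb g hg => by
    rw [Units.val_mul, map_mul, ha g hg, hb g hg]
  inv_mem' := fun {a} ha g hg => by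
    rw [Units.val_inv_eq_inv_val, map_inv₀, ha g hg]

theorem mem_fixU {U : Subgroup (E ≃ₐ[k] E)} {x : Eˣ} :
    x ∈ fixU U ↔ ∀ g ∈ U, g (x : E) = x := Iff.rfl

/-- The norm from `V` to `U` with respect to the chosen representatives. -/
noncomputable def normHom (U V : Subgroup (E ≃ₐ[k] E)) [Fintype (U ⧸ V.subgroupOf U)] :
    Eˣ →* Eˣ :=
  ∏ c : U ⧸ V.subgroupOf U, autU (K := k) ((Quotient.out c : U) : E ≃ₐ[k] E)

theorem normHom_apply (U V : Subgroup (E ≃ₐ[k] E)) [Fintype (U ⧸ V.subgroupOf U)] (x : Eˣ) :
    ((normHom U V x : Eˣ) : E) =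
      ∏ c : U ⧸ V.subgroupOf U, ((Quotient.out c : U) : E ≃ₐ[k] E) (x : E) := by
  rw [normHom, MonoidHom.finsetProd_apply, Units.coe_prod]
  rfl

variable [IsGalois k E]

section Fields

variable {K F : IntermediateField k E} (h : K ≤ F)

/-- The `K`-embedding of `F` given by an element of the Galois group. -/
noncomputable def embOf (g : K.fixingSubgroup) : IntermediateField.extendScalars h →ₐ[K] E :=
  ((IntermediateField.fixingSubgroupEquiv K g : E ≃ₐ[K] E) : E →ₐ[K] E).comp
    (IntermediateField.extendScalars h).val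

omit [IsGalois k E] in
theorem embOf_apply (g : K.fixingSubgroup) (x : IntermediateField.extendScalars h) :
    embOf h g x = (g : E ≃ₐ[k] E) (x : E) := rfl

omit [IsGalois k E] in
theorem embOf_eq_iff (g g' : K.fixingSubgroup) :
    embOf h g = embOf h g' ↔ g⁻¹ * g' ∈ F.fixingSubgroup.subgroupOf K.fixingSubgroup := by
  rw [Subgroup.mem_subgroupOf, IntermediateField.mem_fixingSubgroup_iff]
  constructor
  · intro he x hx
    have h1 : (g : E ≃ₐ[k] E) x = (g' : E ≃ₐ[k] E) x :=
      congrArg (fun φ : IntermediateField.extendScalars h →ₐ[K] E => φ ⟨x, hx⟩) he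
    change ((g : E ≃ₐ[k] E)⁻¹ * (g' : E ≃ₐ[k] E)) x = x
    rw [AlgEquiv.mul_apply, ← h1, ← AlgEquiv.mul_apply, inv_mul_cancel, AlgEquiv.one_apply]
  · intro he
    refine AlgHom.ext fun x => ?_
    rw [embOf_apply, embOf_apply]
    have h1 := he (x : E) x.2
    have h2 : ((g : E ≃ₐ[k] E)⁻¹ * (g' : E ≃ₐ[k] E)) (x : E) = x := h1
    rw [AlgEquiv.mul_apply] at h2
    calc (g : E ≃ₐ[k] E) (x : E) = (g : E ≃ₐ[k] E) ((g : E ≃ₐ[k] E)⁻¹ ((g' : E ≃ₐ[k] E) x)) := by
          rw [h2]
      _ = (g' : E ≃ₐ[k] E) x := by
          rw [← AlgEquiv.mul_apply, mul_inv_cancel, AlgEquiv.one_apply]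

theorem embOf_surjective : Function.Surjective (embOf h) := by
  intro φ
  have hE : IsGalois K E := inferInstance
  let ψ : E →ₐ[K] E := AlgHom.liftNormal φ E
  have hψ : Function.Bijective ψ := Algebra.IsAlgebraic.algHom_bijective ψ
  let e : E ≃ₐ[K] E := AlgEquiv.ofBijective ψ hψ
  refine ⟨(IntermediateField.fixingSubgroupEquiv K).symm e, ?_⟩
  refine AlgHom.ext fun x => ?_
  have h1 : IntermediateField.fixingSubgroupEquiv K
    ((IntermediateField.fixingSubgroupEquiv K).symm e) = e := MulEquiv.apply_symm_apply _ _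
  change (IntermediateField.fixingSubgroupEquiv K
    ((IntermediateField.fixingSubgroupEquiv K).symm e)) (x : E) = _
  rw [h1]
  exact AlgHom.liftNormal_commutes φ E x

/-- `Gal(E/K) / Gal(E/F)` is in bijection with the set of `K`-embeddings of `F` in `E`. -/
noncomputable def embEquiv :
    (K.fixingSubgroup ⧸ F.fixingSubgroup.subgroupOf K.fixingSubgroup) ≃
      (IntermediateField.extendScalars h →ₐ[K] E) :=
  Equiv.ofBijective
    (Quotient.lift (embOf h) (by
      intro a b hab
      exact (embOf_eq_iff h a b).mpr (QuotientGroup.leftRel_apply.mp hab)))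
    ⟨by
      intro a b
      refine Quotient.inductionOn₂ a b ?_
      intro a b hab
      exact QuotientGroup.eq.mpr ((embOf_eq_iff h a b).mp hab), by
      intro φ
      obtain ⟨g, hg⟩ := embOf_surjective h φ
      exact ⟨(g : K.fixingSubgroup ⧸ F.fixingSubgroup.subgroupOf K.fixingSubgroup), hg⟩⟩

theorem embEquiv_mk (g : K.fixingSubgroup) :
    embEquiv h (g : K.fixingSubgroup ⧸ F.fixingSubgroup.subgroupOf K.fixingSubgroup) =
      embOf h g := rfl

theorem embEquiv_apply
    (c : K.fixingSubgroup ⧸ F.fixingSubgroup.subgroupOf K.fixingSubgroup)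
    (x : IntermediateField.extendScalars h) :
    embEquiv h c x = ((Quotient.out c : K.fixingSubgroup) : E ≃ₐ[k] E) (x : E) := by
  conv_lhs => rw [← Quotient.out_eq c]
  rfl

variable [IsAlgClosed E]

theorem finrank_extendScalars_eq [FiniteDimensional K (IntermediateField.extendScalars h)] :
    Module.finrank K (IntermediateField.extendScalars h) =
      F.fixingSubgroup.relIndex K.fixingSubgroup := by
  have hsep : Algebra.IsSeparable K (IntermediateField.extendScalars h) := inferInstance
  rw [Subgroup.relIndex, Subgroup.index, Nat.card_congr (embEquiv h), Nat.card_eq_fintype_card,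
    AlgHom.card]

/-- The norm as a product over cosets of the Galois group. -/
theorem norm_eq_prod_quotient [FiniteDimensional K (IntermediateField.extendScalars h)]
    [Fintype (K.fixingSubgroup ⧸ F.fixingSubgroup.subgroupOf K.fixingSubgroup)]
    (x : IntermediateField.extendScalars h) :
    ((Algebra.norm K x : K) : E) =
      ∏ c : K.fixingSubgroup ⧸ F.fixingSubgroup.subgroupOf K.fixingSubgroup,
        ((Quotient.out c : K.fixingSubgroup) : E ≃ₐ[k] E) (x : E) := by
  have hsep : Algebra.IsSeparable K (IntermediateField.extendScalars h) := inferInstance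
  have h1 := Algebra.norm_eq_prod_embeddings K E x
  have h2 : ((Algebra.norm K x : K) : E) = algebraMap K E (Algebra.norm K x) := rfl
  rw [h2, h1]
  refine (Fintype.prod_equiv (embEquiv h) _ _ fun c => ?_).symm
  rw [embEquiv_apply]

omit [IsAlgClosed E] in
theorem isGalois_of_normal
    (hn : (F.fixingSubgroup.subgroupOf K.fixingSubgroup).Normal) :
    IsGalois K (IntermediateField.extendScalars h) := by
  have hsep : Algebra.IsSeparable K (IntermediateField.extendScalars h) := inferInstance
  have hnormal : Normal K (IntermediateField.extendScalars h) := by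
    rw [IntermediateField.normal_iff_forall_fieldRange_le]
    intro φ
    rintro _ ⟨x, rfl⟩
    obtain ⟨g, rfl⟩ := embOf_surjective h φ
    change (g : E ≃ₐ[k] E) (x : E) ∈ F
    refine (InfiniteGalois.fixedField_fixingSubgroup F).le ?_
    rw [IntermediateField.mem_fixedField_iff]
    intro v hv
    have hvK : v ∈ K.fixingSubgroup := IntermediateField.fixingSubgroup_antitone h hv
    have h1 : (g⁻¹ * ⟨v, hvK⟩ * g) ∈ F.fixingSubgroup.subgroupOf K.fixingSubgroup := by
      have := hn.conj_mem ⟨v, hvK⟩ hv g⁻¹
      rwa [inv_inv] at this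
    rw [Subgroup.mem_subgroupOf, IntermediateField.mem_fixingSubgroup_iff] at h1
    have h2 : ((g : E ≃ₐ[k] E)⁻¹ * v * (g : E ≃ₐ[k] E)) (x : E) = x := h1 x x.2
    rw [AlgEquiv.mul_apply, AlgEquiv.mul_apply] at h2
    calc v ((g : E ≃ₐ[k] E) (x : E))
        = (g : E ≃ₐ[k] E) ((g : E ≃ₐ[k] E)⁻¹ (v ((g : E ≃ₐ[k] E) (x : E)))) := by
          rw [← AlgEquiv.mul_apply (g : E ≃ₐ[k] E), mul_inv_cancel, AlgEquiv.one_apply]
      _ = (g : E ≃ₐ[k] E) (x : E) := by rw [h2]
  exact ⟨⟩

omit [IsGalois k E] [IsAlgClosed E] in
theorem finite_extendScalars [FiniteDimensional k F] :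
    FiniteDimensional K (IntermediateField.extendScalars h) := by
  have h1 : FiniteDimensional k (IntermediateField.extendScalars h) := by
    let e : F ≃ₗ[k] IntermediateField.extendScalars h :=
      { toFun := fun x => ⟨x, x.2⟩
        invFun := fun x => ⟨x, x.2⟩
        map_add' := fun x y => rfl
        map_smul' := fun r x => by
          apply Subtype.ext
          simp only [RingHom.id_apply]
          rfl
        left_inv := fun x => rfl
        right_inv := fun x => rfl }
    exact Module.Finite.equiv e
  exact Module.Finite.of_restrictScalars_finite k K _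

variable (K) in
omit [IsAlgClosed E] in
/-- `fixU` of the fixing subgroup of `K` is the group of units of `K`. -/
theorem fixU_fixingSubgroup :
    fixU K.fixingSubgroup = (Units.map (algebraMap K E : K →* E)).range := by
  ext x
  constructor
  · intro hx
    have h1 : (x : E) ∈ K := by
      refine (InfiniteGalois.fixedField_fixingSubgroup K).le ?_
      rw [IntermediateField.mem_fixedField_iff]
      exact fun g hg => hx g hg
    refine ⟨Units.mk0 ⟨(x : E), h1⟩ ?_, ?_⟩
    · intro h0
      exact x.ne_zero (congrArg Subtype.val h0)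
    · ext; rfl
  · rintro ⟨y, rfl⟩ g hg
    exact (IntermediateField.mem_fixingSubgroup_iff K g).mp hg _ (y : K).2

/-- The norm subgroup, in terms of the Galois group and in terms of fields. -/
theorem map_normHom_eq [FiniteDimensional k F]
    [Fintype (K.fixingSubgroup ⧸ F.fixingSubgroup.subgroupOf K.fixingSubgroup)] :
    (fixU F.fixingSubgroup).map (normHom K.fixingSubgroup F.fixingSubgroup) =
      (normU K (IntermediateField.extendScalars h)).range.map
        (Units.map (algebraMap K E : K →* E)) := by
  have hfd := finite_extendScalars h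
  rw [fixU_fixingSubgroup]
  ext x
  constructor
  · rintro ⟨_, ⟨y, rfl⟩, rfl⟩
    let y' : (IntermediateField.extendScalars h)ˣ :=
      Units.map (({ toFun := fun x => ⟨x, x.2⟩, map_one' := rfl, map_mul' := fun _ _ => rfl } :
        F →* IntermediateField.extendScalars h)) y
    refine ⟨_, ⟨y', rfl⟩, ?_⟩
    ext
    rw [normHom_apply]
    exact norm_eq_prod_quotient h (y' : IntermediateField.extendScalars h)
  · rintro ⟨_, ⟨y, rfl⟩, rfl⟩
    let y' : Fˣ :=
      Units.map (({ toFun := fun x => ⟨x, x.2⟩, map_one' := rfl, map_mul' := fun _ _ => rfl } :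
        IntermediateField.extendScalars h →* F)) y
    refine ⟨_, ⟨y', rfl⟩, ?_⟩
    ext
    rw [normHom_apply]
    exact (norm_eq_prod_quotient h (y : IntermediateField.extendScalars h)).symm

theorem relIndex_map_normHom [FiniteDimensional k F]
    [Fintype (K.fixingSubgroup ⧸ F.fixingSubgroup.subgroupOf K.fixingSubgroup)] :
    ((fixU F.fixingSubgroup).map (normHom K.fixingSubgroup F.fixingSubgroup)).relIndex
      (fixU K.fixingSubgroup) = (normU K (IntermediateField.extendScalars h)).range.index := by
  have hinj : Function.Injective (Units.map (algebraMap K E : K →* E)) :=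
    Units.map_injective (algebraMap K E).injective
  rw [map_normHom_eq h, fixU_fixingSubgroup, MonoidHom.range_eq_map (Units.map _),
    Subgroup.relIndex_map_map_of_injective _ _ hinj, Subgroup.relIndex_top_right]

end Fields

end GaloisNorm

end Fermat.Agent.CFT.Local
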