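import Fermat.Agent.CFT.Local.Basic

/-!
# Local fields: indices of the filtration of the unit group
-/

open Filter Topology

open scoped NNReal

namespace Fermat.Agent.CFT.Local

section PowU

variable {K : Type*} [NormedField K] [IsUltrametricDist K]

theorem U_map_pow [CompleteSpace K] {p : ℕ} (hp : p.Prime) (hp2 : p ≠ 2)
    (hp0 : (p : K) ≠ 0) {ρ : ℝ≥0} (hρ : ρ ≤ ‖(p : K)‖₊) (hρ1 : ρ < 1) :
    (U K ρ).map (powMonoidHom p) = U K (‖(p : K)‖₊ * ρ) := by
  have hp1 : ‖(p : K)‖₊ ≤ 1 := IsUltrametricDist.norm_natCast_le_one K p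
  have hρ2 : ‖(p : K)‖₊ * ρ < 1 := (mul_le_of_le_one_left (by positivity) hp1).trans_lt hρ1
  apply le_antisymm
  · rintro _ ⟨u, hu, rfl⟩
    rw [SetLike.mem_coe, mem_U_of_lt hρ1] at hu
    rw [mem_U_of_lt hρ2, powMonoidHom_apply, Units.val_pow_eq_pow_val]
    rw [norm_pow_sub_one_of_le hp hp2 hp0 (c := ρ) (by exact_mod_cast hρ) (by exact_mod_cast hρ1) hu]
    push_cast
    gcongr
  · intro v hv
    rw [mem_U_of_lt hρ2] at hv
    obtain ⟨u, hu, huv⟩ := exists_pow_eq hp hp2 hp0 (c := ρ) (by positivity)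
      (by exact_mod_cast hρ) (by exact_mod_cast hρ1) (v : K) (by exact_mod_cast hv)
    have hu0 : u ≠ 0 := by
      rintro rfl
      rw [zero_pow hp.ne_zero] at huv
      exact v.ne_zero huv.symm
    refine ⟨Units.mk0 u hu0, (mem_U_of_lt hρ1).mpr hu, ?_⟩
    ext
    simpa using huv

theorem eq_one_of_pow_eq_one_of_mem_U {p : ℕ} (hp : p.Prime) (hp2 : p ≠ 2)
    (hp0 : (p : K) ≠ 0) {ρ : ℝ≥0} (hρ : ρ ≤ ‖(p : K)‖₊) (hρ1 : ρ < 1) {u : Kˣ}
    (hu : u ∈ U K ρ) (h : u ^ p = 1) : u = 1 := by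
  have h1 := norm_pow_sub_one_of_le hp hp2 hp0 (c := ρ) (by exact_mod_cast hρ)
    (by exact_mod_cast hρ1) ((mem_U_of_lt hρ1).mp hu)
  rw [← Units.val_pow_eq_pow_val, h, Units.val_one, sub_self, norm_zero] at h1
  have h2 : ‖(p : K)‖ ≠ 0 := norm_ne_zero_iff.mpr hp0
  have h3 : ‖(u : K) - 1‖ = 0 := by
    rcases mul_eq_zero.mp h1.symm with h | h
    · exact absurd h h2
    · exact h
  ext
  rw [Units.val_one]
  exact sub_eq_zero.mp (norm_eq_zero.mp h3)

end PowU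

/-! ### The ring of integers as an additive group -/

section Integers

variable (K : Type*) [NormedField K] [IsUltrametricDist K]

/-- The closed unit ball as an additive subgroup. -/
def O : AddSubgroup K where
  carrier := {x | ‖x‖ ≤ 1}
  zero_mem' := by simp
  add_mem' := fun {a b} ha hb => (IsUltrametricDist.norm_add_le_max a b).trans (max_le ha hb)
  neg_mem' := fun {a} ha => by
    change ‖-a‖ ≤ 1
    rw [norm_neg]; exact ha

variable {K}

theorem mem_O {x : K} : x ∈ O K ↔ ‖x‖ ≤ 1 := Iff.rfl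

/-- Multiplication by `t`, `‖t‖ ≤ 1`, on the closed unit ball. -/
def mulO (t : K) (ht : ‖t‖ ≤ 1) : O K →+ O K where
  toFun x := ⟨t * x, by
    rw [mem_O, norm_mul]
    exact mul_le_one₀ ht (norm_nonneg _) x.2⟩
  map_zero' := by ext; simp
  map_add' x y := by ext; simp [mul_add]

theorem mulO_apply (t : K) (ht : ‖t‖ ≤ 1) (x : O K) : (mulO t ht x : K) = t * x := rfl

theorem mem_range_mulO {t : K} (ht0 : t ≠ 0) (ht : ‖t‖ ≤ 1) (x : O K) :
    x ∈ (mulO t ht).range ↔ ‖(x : K)‖ ≤ ‖t‖ := by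
  have htp : 0 < ‖t‖ := norm_pos_iff.mpr ht0
  constructor
  · rintro ⟨y, rfl⟩
    rw [mulO_apply, norm_mul]
    exact mul_le_of_le_one_right htp.le y.2
  · intro h
    refine ⟨⟨x / t, ?_⟩, ?_⟩
    · rw [mem_O, norm_div, div_le_one htp]; exact h
    · ext
      rw [mulO_apply]
      simp only
      field_simp

/-- `U(‖s‖) / U(‖s‖‖t‖) ≅ O / tO` for `‖s‖ ≤ ‖t‖ < 1`. -/
theorem relIndex_U {s t : K} (hs0 : s ≠ 0) (hst : ‖s‖ ≤ ‖t‖) (ht : ‖t‖ < 1) :
    (U K (‖s‖₊ * ‖t‖₊)).relIndex (U K ‖s‖₊) = (mulO t ht.le).range.index := by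
  have hsp : 0 < ‖s‖ := norm_pos_iff.mpr hs0
  have htp : 0 < ‖t‖ := hsp.trans_le hst
  have ht0 : t ≠ 0 := norm_pos_iff.mp htp
  have hs1 : ‖s‖₊ < 1 := by
    have := hst.trans_lt ht
    exact_mod_cast this
  have ht1 : ‖t‖₊ < 1 := by exact_mod_cast ht
  have hst1 : ‖s‖₊ * ‖t‖₊ < 1 := (mul_le_of_le_one_right (by positivity) ht1.le).trans_lt hs1
  have hmem : ∀ u : U K ‖s‖₊, ((u : Kˣ) - 1 : K) / s ∈ O K := by
    intro u
    rw [mem_O, norm_div, div_le_one hsp]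
    exact ((mem_U_of_lt hs1).mp u.2)
  let ψ : U K ‖s‖₊ →* Multiplicative (O K ⧸ (mulO t ht.le).range) :=
    { toFun := fun u => Multiplicative.ofAdd
        (QuotientAddGroup.mk (⟨((u : Kˣ) - 1 : K) / s, hmem u⟩ : O K))
      map_one' := by
        rw [← ofAdd_zero]
        congr 1
        rw [QuotientAddGroup.eq_zero_iff]
        have : (⟨(((1 : U K ‖s‖₊) : Kˣ) - 1 : K) / s, hmem 1⟩ : O K) = 0 := by
          ext; simp
        rw [this]
        exact zero_mem _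
      map_mul' := by
        intro u v
        rw [← ofAdd_add]
        congr 1
        rw [← QuotientAddGroup.mk_add, QuotientAddGroup.eq, mem_range_mulO ht0]
        have hu : ‖((u : Kˣ) : K) - 1‖ ≤ ‖s‖ := ((mem_U_of_lt hs1).mp u.2)
        have hv : ‖((v : Kˣ) : K) - 1‖ ≤ ‖s‖ := ((mem_U_of_lt hs1).mp v.2)
        have e : ((-(⟨(((u * v : U K ‖s‖₊) : Kˣ) - 1 : K) / s, hmem (u * v)⟩ : O K) +
            ((⟨((u : Kˣ) - 1 : K) / s, hmem u⟩ : O K) + (⟨((v : Kˣ) - 1 : K) / s, hmem v⟩ : O K))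
             : O K) : K) = - ((((u : Kˣ) : K) - 1) * (((v : Kˣ) : K) - 1) / s) := by
          push_cast
          field_simp
          ring
        rw [e, norm_neg, norm_div, norm_mul, div_le_iff₀ hsp]
        exact mul_le_mul (hu.trans hst) hv (norm_nonneg _) (norm_nonneg _) }
  have hψ : ∀ u : U K ‖s‖₊, ψ u = Multiplicative.ofAdd
        (QuotientAddGroup.mk (⟨((u : Kˣ) - 1 : K) / s, hmem u⟩ : O K)) := fun u => rfl
  have hker : ψ.ker = (U K (‖s‖₊ * ‖t‖₊)).subgroupOf (U K ‖s‖₊) := by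
    ext u
    rw [MonoidHom.mem_ker, hψ, Subgroup.mem_subgroupOf, mem_U_of_lt hst1, ofAdd_eq_one,
      QuotientAddGroup.eq_zero_iff, mem_range_mulO ht0]
    simp only
    rw [norm_div, div_le_iff₀ hsp, mul_comm]
    push_cast
    rfl
  have hsurj : Function.Surjective ψ := by
    intro y
    obtain ⟨x, hx⟩ := QuotientAddGroup.mk_surjective (Multiplicative.toAdd y)
    have hx1 : ‖s * (x : K)‖ ≤ ‖s‖ := by
      rw [norm_mul]; exact mul_le_of_le_one_right hsp.le x.2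
    have h1 : ‖(1 + s * (x : K)) - 1‖ ≤ ‖s‖ := by rwa [add_sub_cancel_left]
    have hn1 : ‖1 + s * (x : K)‖ = 1 :=
      norm_eq_one_of_norm_sub_one_lt (h1.trans_lt (by exact_mod_cast hs1))
    have hne : 1 + s * (x : K) ≠ 0 := by
      rw [← norm_ne_zero_iff, hn1]; exact one_ne_zero
    refine ⟨⟨Units.mk0 _ hne, (mem_U_of_lt hs1).mpr h1⟩, ?_⟩
    rw [hψ]
    have : (⟨(((⟨Units.mk0 _ hne, (mem_U_of_lt hs1).mpr h1⟩ : U K ‖s‖₊) : Kˣ) - 1 : K) / s,
        hmem _⟩ : O K) = x := by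
      ext
      simp only [Units.val_mk0]
      field_simp
      ring
    rw [this, hx, ofAdd_toAdd]
  rw [Subgroup.relIndex, ← hker, Subgroup.index_ker, MonoidHom.range_eq_top.mpr hsurj]
  exact Subgroup.card_top

end Integers

end Fermat.Agent.CFT.Local
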