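import Fermat.Agent.CFT.Local.Galois

/-!
# Finite extensions of `ℚ_q` inside `PadicAlgCl q`: `p`-th powers and norm index

Main results, for an odd prime `p`:
* `index_pow_units_alg`, `index_norm_range_alg`: in terms of a finite extension `K` of `ℚ_q`;
* `index_pow_fixU`, `norm_index_group`: in terms of open subgroups of the absolute Galois group.
-/

open Filter Topology

namespace Fermat.Agent.CFT.Local

variable (q : ℕ) [Fact q.Prime]

section Fields

variable (K : IntermediateField ℚ_[q] (PadicAlgCl q)) [FiniteDimensional ℚ_[q] K]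

theorem index_pow_units_alg {p : ℕ} (hp : p.Prime) (hp2 : p ≠ 2) :
    (powMonoidHom p : Kˣ →* Kˣ).range.index =
      p * Nat.card (powMonoidHom p : Kˣ →* Kˣ).ker *
        (if p = q then q ^ Module.finrank ℚ_[q] K else 1) :=
  index_pow_units q K hp hp2

/-- The norm index is `p` for cyclic extensions `F/K` of degree `p` (`F` being any field). -/
theorem index_norm_range_alg {p : ℕ} (hp : p.Prime) (hp2 : p ≠ 2)
    (F : Type) [Field F] [Algebra K F] [IsGalois K F] (hdeg : Module.finrank K F = p) :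
    (normU K F).range.index = p := by
  have hfd : FiniteDimensional K F := Module.finite_of_finrank_pos (by rw [hdeg]; exact hp.pos)
  let φ : F →ₐ[K] PadicAlgCl q := IsAlgClosed.lift
  let nf : NormedField F := NormedField.induced F (PadicAlgCl q) φ φ.injective
  let alg : Algebra ℚ_[q] F := ((algebraMap K F).comp (algebraMap ℚ_[q] K)).toAlgebra
  have hst : IsScalarTower ℚ_[q] K F := IsScalarTower.of_algebraMap_eq (fun x => rfl)
  have hφ : ∀ (r : ℚ_[q]) (x : F), φ (r • x) = r • φ x := by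
    intro r x
    rw [Algebra.smul_def, Algebra.smul_def, map_mul]
    congr 1
    rw [hst.algebraMap_apply, AlgHom.commutes]
    rfl
  let nalg : NormedAlgebra ℚ_[q] F :=
    { alg with
      norm_smul_le := by
        intro r x
        change ‖φ (r • x)‖ ≤ ‖r‖ * ‖φ x‖
        rw [hφ]
        exact norm_smul_le _ _ }
  have hult : IsUltrametricDist F := ⟨fun x y z => by
    change dist (φ x) (φ z) ≤ max (dist (φ x) (φ y)) (dist (φ y) (φ z))
    exact dist_triangle_max _ _ _⟩
  have hfd2 : FiniteDimensional ℚ_[q] F := FiniteDimensional.trans ℚ_[q] K F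
  exact index_norm_range q K F hp hp2 hdeg

omit [FiniteDimensional ℚ_[q] K] in
theorem card_ker_pow_of_mu {p : ℕ} (hp : p.Prime) (hK : ∀ z : PadicAlgCl q, z ^ p = 1 → z ∈ K) :
    Nat.card (powMonoidHom p : Kˣ →* Kˣ).ker = p := by
  have : NeZero p := ⟨hp.ne_zero⟩
  obtain ⟨ζ, hζ⟩ := HasEnoughRootsOfUnity.exists_primitiveRoot (PadicAlgCl q) p
  have hζK : ζ ∈ K := hK ζ hζ.pow_eq_one
  have hζ' : IsPrimitiveRoot (⟨ζ, hζK⟩ : K) p :=
    IsPrimitiveRoot.of_map_of_injective (f := algebraMap K (PadicAlgCl q)) hζ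
      (algebraMap K (PadicAlgCl q)).injective
  have h : (powMonoidHom p : Kˣ →* Kˣ).ker = rootsOfUnity p K := by
    ext x
    rw [MonoidHom.mem_ker, powMonoidHom_apply, mem_rootsOfUnity]
  rw [h]
  exact hζ'.card_rootsOfUnity

/-- `[Kˣ : Kˣ^p] = p ^ (2 + δ [K : ℚ_q])` for `K ∋ ζ_p`. -/
theorem index_pow_units_of_mu {p : ℕ} (hp : p.Prime) (hp2 : p ≠ 2)
    (hK : ∀ z : PadicAlgCl q, z ^ p = 1 → z ∈ K) :
    (powMonoidHom p : Kˣ →* Kˣ).range.index =
      p ^ (2 + if p = q then Module.finrank ℚ_[q] K else 0) := by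
  rw [index_pow_units_alg q K hp hp2, card_ker_pow_of_mu q K hp hK]
  split_ifs with h
  · subst h; ring
  · ring

end Fields

section Groups

theorem exists_field_of_isOpen {U : Subgroup (PadicAlgCl q ≃ₐ[ℚ_[q]] PadicAlgCl q)}
    (hU : IsOpen (U : Set (PadicAlgCl q ≃ₐ[ℚ_[q]] PadicAlgCl q))) :
    ∃ K : IntermediateField ℚ_[q] (PadicAlgCl q), FiniteDimensional ℚ_[q] K ∧
      K.fixingSubgroup = U := by
  have hc : IsClosed (U : Set (PadicAlgCl q ≃ₐ[ℚ_[q]] PadicAlgCl q)) :=
    Subgroup.isClosed_of_isOpen U hU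
  have h1 : (IntermediateField.fixedField U).fixingSubgroup = U :=
    InfiniteGalois.fixingSubgroup_fixedField (⟨U, hc⟩ : ClosedSubgroup _)
  refine ⟨IntermediateField.fixedField U, ?_, h1⟩
  rw [← InfiniteGalois.isOpen_iff_finite, h1]
  exact hU

variable {q}

/-- Norm index, in terms of the absolute Galois group. -/
theorem norm_index_group {U V : Subgroup (PadicAlgCl q ≃ₐ[ℚ_[q]] PadicAlgCl q)}
    (hV : IsOpen (V : Set (PadicAlgCl q ≃ₐ[ℚ_[q]] PadicAlgCl q))) (hVU : V ≤ U)
    (hn : (V.subgroupOf U).Normal) {p : ℕ} (hp : p.Prime) (hp2 : p ≠ 2)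
    (hidx : V.relIndex U = p) [Fintype (U ⧸ V.subgroupOf U)] :
    ((fixU V).map (normHom U V)).relIndex (fixU U) = p := by
  have hU : IsOpen (U : Set (PadicAlgCl q ≃ₐ[ℚ_[q]] PadicAlgCl q)) :=
    Subgroup.isOpen_mono hVU hV
  obtain ⟨K, hK1, rfl⟩ := exists_field_of_isOpen q hU
  obtain ⟨F, hF1, rfl⟩ := exists_field_of_isOpen q hV
  have hKF : K ≤ F := by
    rw [← InfiniteGalois.fixedField_fixingSubgroup K, ← InfiniteGalois.fixedField_fixingSubgroup F]
    exact IntermediateField.fixedField_antitone hVU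
  have hfd := finite_extendScalars hKF
  have hgal := isGalois_of_normal hKF hn
  rw [relIndex_map_normHom hKF]
  apply index_norm_range_alg q K hp hp2
  rw [finrank_extendScalars_eq, hidx]

/-- `p`-th powers, in terms of the absolute Galois group. -/
theorem index_pow_fixU {U : Subgroup (PadicAlgCl q ≃ₐ[ℚ_[q]] PadicAlgCl q)}
    (hU : IsOpen (U : Set (PadicAlgCl q ≃ₐ[ℚ_[q]] PadicAlgCl q)))
    {p : ℕ} (hp : p.Prime) (hp2 : p ≠ 2)
    (hmu : ∀ z : PadicAlgCl q, z ^ p = 1 → ∀ g ∈ U, g z = z) :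
    (powMonoidHom p : fixU U →* fixU U).range.index =
      p ^ (2 + if p = q then U.index else 0) := by
  obtain ⟨K, hK1, rfl⟩ := exists_field_of_isOpen q hU
  have hK : ∀ z : PadicAlgCl q, z ^ p = 1 → z ∈ K := by
    intro z hz
    rw [← InfiniteGalois.fixedField_fixingSubgroup K, IntermediateField.mem_fixedField_iff]
    exact hmu z hz
  have h1 := index_pow_units_of_mu q K hp hp2 hK
  rw [IntermediateField.finrank_eq_fixingSubgroup_index] at h1
  rw [← h1]
  have hinj : Function.Injective (Units.map (algebraMap K (PadicAlgCl q) : K →* PadicAlgCl q)) :=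
    Units.map_injective (algebraMap K (PadicAlgCl q)).injective
  let e : Kˣ ≃* fixU K.fixingSubgroup :=
    (MonoidHom.ofInjective hinj).trans (MulEquiv.subgroupCongr (fixU_fixingSubgroup K).symm)
  have h2 : (powMonoidHom p : fixU K.fixingSubgroup →* fixU K.fixingSubgroup).range =
      (powMonoidHom p : Kˣ →* Kˣ).range.map e.toMonoidHom := by
    ext y
    constructor
    · rintro ⟨x, rfl⟩
      refine ⟨(e.symm x) ^ p, ⟨_, rfl⟩, ?_⟩
      change e _ = _
      rw [map_pow, e.apply_symm_apply]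
      rfl
    · rintro ⟨_, ⟨x, rfl⟩, rfl⟩
      refine ⟨e x, ?_⟩
      change _ = e _
      rw [powMonoidHom_apply, powMonoidHom_apply, map_pow]
  rw [h2]
  exact Subgroup.index_map_of_bijective e.bijective _

end Groups

end Fermat.Agent.CFT.Local
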